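import Mathlib
import Fermat.Agent.S18.Gauss.Basic
import Fermat.Agent.S18.Core.Charts
import Fermat.Agent.S18.Core.ConstOfIntegral

/-!
# S18, INST layer (generic part): from the Gauss valuation of `Gauss/Basic` to the hypotheses of
`Core/Charts`

Setting (that of `Gauss/Basic`): `A` a valuation subring of `L` (a DVR with uniformiser `π`),
`F` a field with `[Algebra L F]` and a ring homomorphism `φ : F →+* L((q))` which is `C` on the
constants and all of whose nonzero values are scalable (`hφ : Scalable A φ`);
`O := gaussSubring hφ`, `ρ := resMap hφ : O →+* κ((q))`, `κ` the residue field of `A`.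
With `R := ↥A` (the instances `Algebra ↥A F`, `IsScalarTower ↥A L F`, `IsFractionRing ↥A L` are
Mathlib's) we produce, for any coordinate `τ ∈ O` whose reduction `ρ τ` is transcendental over `κ`:

* `goodCoord : GoodCoord π O τ` (the structure of `Core/Charts`);
* `exists_algebraMap_eq_of_isIntegral` : `A` is integrally closed in `F` (`hR` of `Charts.cap`);
* `exists_sub_lt_one_of_monic` : `κ` is algebraically closed in the residue field (`hκ` of
  `Charts.conn`);
* generic transfer lemmas `huniq_of_le`, `finiteDimensional_of_le`, `isSeparable_of_charZero`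
  for passing from `L(J)` to `L(τ) ⊇ L(J)`.

Everything is generic in `(F, φ)`, so that it applies both to `F_{M',L}` with `τ = t` and to the
Kummer covers `F' = F(s)` of the cusp block.
-/

set_option autoImplicit false

noncomputable section

namespace Fermat.Agent.S18.Inst.GaussChart

open Polynomial IsLocalRing
open Fermat.Agent.S18.Gauss.Basic Fermat.Agent.S18.Core.Charts

variable {L : Type*} [Field L] {A : ValuationSubring L}
variable {F : Type*} [Field F] [Algebra L F] {φ : F →+* LaurentSeries L}

section Pre

omit [Algebra L F] in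
theorem valuation_lt_one_iff (hφ : Scalable A φ) (x : gaussSubring hφ) :
    (gaussSubring hφ).valuation (x : F) < 1 ↔ resMap hφ x = 0 := by
  rw [resMap_eq_zero_iff, ValuationSubring.valuation_lt_one_iff]

end Pre

section Basic

variable (hconst : ∀ c : L, φ (algebraMap L F c) = HahnSeries.C c) (hφ : Scalable A φ)

include hconst

theorem algebraMap_mem (a : A) : algebraMap A F a ∈ gaussSubring hφ := by
  have h : (a : L) ∈ (gaussSubring hφ).comap (algebraMap L F) := by
    rw [comap_algebraMap hconst hφ]
    exact a.2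
  exact h

/-- the structure map `A → O`. -/
def toO : A →+* gaussSubring hφ :=
  (algebraMap A F).codRestrict (gaussSubring hφ) (algebraMap_mem hconst hφ)

@[simp]
theorem coe_toO (a : A) : ((toO hconst hφ a : gaussSubring hφ) : F) = algebraMap A F a := rfl

theorem resMap_toO (a : A) :
    resMap hφ (toO hconst hφ a) = HahnSeries.C (residue A a) :=
  resMap_algebraMap hconst hφ a _

theorem aeval_eq_coe_eval₂ {y : F} (hy : y ∈ gaussSubring hφ) (p : A[X]) :
    aeval y p = ((eval₂ (toO hconst hφ) (⟨y, hy⟩ : gaussSubring hφ) p : gaussSubring hφ) : F) := by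
  have h := Polynomial.hom_eval₂ p (toO hconst hφ) (gaussSubring hφ).subtype ⟨y, hy⟩
  rw [ValuationSubring.coe_subtype] at h
  rw [h, aeval_def]
  rfl

theorem aeval_mem {y : F} (hy : y ∈ gaussSubring hφ) (p : A[X]) :
    aeval y p ∈ gaussSubring hφ := by
  rw [aeval_eq_coe_eval₂ hconst hφ hy p]
  exact Subtype.coe_prop _

theorem resMap_aeval {y : F} (hy : y ∈ gaussSubring hφ) (p : A[X]) :
    resMap hφ ⟨aeval y p, aeval_mem hconst hφ hy p⟩ =
      aeval (resMap hφ ⟨y, hy⟩) (p.map (residue A)) := by
  have h1 : (⟨aeval y p, aeval_mem hconst hφ hy p⟩ : gaussSubring hφ) =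
      eval₂ (toO hconst hφ) (⟨y, hy⟩ : gaussSubring hφ) p :=
    Subtype.ext (aeval_eq_coe_eval₂ hconst hφ hy p)
  rw [h1, Polynomial.hom_eval₂, aeval_def, eval₂_map]
  congr 1
  ext a : 1
  show resMap hφ (toO hconst hφ a) = algebraMap _ _ (residue A a)
  rw [resMap_toO, Fermat.Agent.S18.Core.ConstOfIntegral.algebraMap_laurent_eq_C]

end Basic

section Chart

variable (hconst : ∀ c : L, φ (algebraMap L F c) = HahnSeries.C c) (hφ : Scalable A φ)

include hconst

/-- **(h4)** the reduction of `τ` is transcendental: elementwise shape of `Core/Charts`. -/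
theorem dvd_coeff_of_valuation_lt_one [IsDiscreteValuationRing A] {π : A} (hπ : Irreducible π)
    {τ : F} (hτ : τ ∈ gaussSubring hφ)
    (htr : Transcendental (ResidueField A) (resMap hφ ⟨τ, hτ⟩)) (p : A[X])
    (hp : (gaussSubring hφ).valuation (aeval τ p) < 1) : ∀ i, π ∣ p.coeff i := by
  have h0 : resMap hφ ⟨aeval τ p, aeval_mem hconst hφ hτ p⟩ = 0 :=
    (valuation_lt_one_iff hφ ⟨aeval τ p, aeval_mem hconst hφ hτ p⟩).mp hp
  rw [resMap_aeval hconst hφ hτ p] at h0
  have hp0 : p.map (residue A) = 0 := (transcendental_iff.mp htr) _ h0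
  intro i
  have hi : residue A (p.coeff i) = 0 := by rw [← coeff_map, hp0, coeff_zero]
  rw [residue_eq_zero_iff, hπ.maximalIdeal_eq, Ideal.mem_span_singleton] at hi
  exact hi

/-- **GoodCoord** for the Gauss valuation subring and a coordinate with transcendental
reduction. -/
theorem goodCoord [IsDiscreteValuationRing A] {π : A} (hπ : Irreducible π)
    {τ : F} (hτ : τ ∈ gaussSubring hφ)
    (htr : Transcendental (ResidueField A) (resMap hφ ⟨τ, hτ⟩)) :
    GoodCoord π (gaussSubring hφ) τ where
  irreducible := hπ
  algebraMap_mem := algebraMap_mem hconst hφ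
  pi_lt := by
    have h := (valuation_lt_one_iff hφ (toO hconst hφ π)).mpr ?_
    · exact h
    have hπm : π ∈ maximalIdeal A := by
      rw [hπ.maximalIdeal_eq]
      exact Ideal.mem_span_singleton_self π
    rw [resMap_toO, (residue_eq_zero_iff π).mpr hπm, map_zero]
  exists_eq_mul := by
    intro x hx
    rcases eq_or_ne x 0 with rfl | hx0
    · exact ⟨0, zero_mem _, by simp⟩
    obtain ⟨c, hc, h1, h2⟩ := exists_const_mul_unit hconst hφ x hx0
    have hcF : algebraMap L F c ≠ 0 := by
      rw [Ne, map_eq_zero_iff _ (algebraMap L F).injective]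
      exact hc
    have hxu : x = algebraMap L F c * ((algebraMap L F c)⁻¹ * x) := by
      rw [← mul_assoc, mul_inv_cancel₀ hcF, one_mul]
    have hu0 : (algebraMap L F c)⁻¹ * x ≠ 0 := mul_ne_zero (inv_ne_zero hcF) hx0
    have hu1 : (gaussSubring hφ).valuation ((algebraMap L F c)⁻¹ * x) = 1 := by
      apply le_antisymm ((ValuationSubring.valuation_le_one_iff _ _).2 h1)
      have h3 := (ValuationSubring.valuation_le_one_iff _ _).2 h2
      rw [map_inv₀] at h3
      by_contra hlt
      rw [not_le] at hlt
      have hne : (gaussSubring hφ).valuation ((algebraMap L F c)⁻¹ * x) ≠ 0 := by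
        rw [Ne, map_eq_zero]
        exact hu0
      have := (one_lt_inv₀ (zero_lt_iff.2 hne)).2 hlt
      exact absurd h3 (not_le.2 this)
    have hcv : (gaussSubring hφ).valuation (algebraMap L F c) < 1 := by
      rw [hxu, map_mul, hu1, mul_one] at hx
      exact hx
    have hcA : c ∈ A := by
      rw [← comap_algebraMap hconst hφ, ValuationSubring.mem_comap]
      exact (ValuationSubring.valuation_le_one_iff _ _).mp hcv.le
    have hres : residue A ⟨c, hcA⟩ = 0 := by
      have h4 := (valuation_lt_one_iff hφ (toO hconst hφ ⟨c, hcA⟩)).mp hcv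
      rw [resMap_toO] at h4
      exact HahnSeries.C_injective (h4.trans (map_zero _).symm)
    rw [residue_eq_zero_iff, hπ.maximalIdeal_eq, Ideal.mem_span_singleton] at hres
    obtain ⟨c', hc'⟩ := hres
    refine ⟨algebraMap A F c' * ((algebraMap L F c)⁻¹ * x),
      mul_mem (algebraMap_mem hconst hφ c') h1, ?_⟩
    have hcc : algebraMap L F c = algebraMap A F π * algebraMap A F c' := by
      rw [← map_mul, ← hc']
      rfl
    rw [← mul_assoc, ← hcc]
    exact hxu
  tau_unit := by
    have hne : resMap hφ ⟨τ, hτ⟩ ≠ 0 := by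
      intro h0
      apply htr
      rw [h0]
      exact isAlgebraic_zero
    have hu : IsUnit (⟨τ, hτ⟩ : gaussSubring hφ) := (isUnit_iff_resMap_ne_zero hφ _).mpr hne
    exact (ValuationSubring.valuation_eq_one_iff _ _).mp hu
  transc := dvd_coeff_of_valuation_lt_one hconst hφ hπ hτ htr

/-- **(h6)** `A` is integrally closed in `F` (`L` is algebraically closed in `F ⊆ L((q))`). -/
theorem exists_algebraMap_eq_of_isIntegral (x : F) (hx : IsIntegral A x) :
    ∃ r : A, algebraMap A F r = x := by
  have hxL : IsIntegral L x := hx.tower_top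
  have h1 : IsAlgebraic L (φ x) := by
    obtain ⟨q, hqm, hq⟩ := hxL
    refine IsIntegral.isAlgebraic ⟨q, hqm, ?_⟩
    have h2 := Polynomial.hom_eval₂ q (algebraMap L F) φ x
    rw [hq, map_zero] at h2
    rw [h2]
    congr 1
    ext c : 1
    show algebraMap L (LaurentSeries L) c = φ (algebraMap L F c)
    rw [hconst, Fermat.Agent.S18.Core.ConstOfIntegral.algebraMap_laurent_eq_C]
  obtain ⟨c, hc⟩ := Fermat.Agent.S18.Core.ConstOfIntegral.exists_eq_C_of_isAlgebraic h1
  have hxc : x = algebraMap L F c := φ.injective (by rw [hc, hconst])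
  have hcint : IsIntegral A c := by
    rw [hxc] at hx
    exact (isIntegral_algebraMap_iff (algebraMap L F).injective).mp hx
  obtain ⟨r, hr⟩ := IsIntegrallyClosed.isIntegral_iff.mp hcint
  refine ⟨r, ?_⟩
  rw [hxc, ← hr]
  rfl

/-- **(h7)** the residue field `κ` of `A` is algebraically closed in the residue field of the
Gauss valuation (`⊆ κ((q))`). -/
theorem exists_sub_lt_one_of_monic {y : F} (hy : y ∈ gaussSubring hφ) (p : A[X]) (hp : p.Monic)
    (hlt : (gaussSubring hφ).valuation (aeval y p) < 1) :
    ∃ r : A, (gaussSubring hφ).valuation (y - algebraMap A F r) < 1 := by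
  have h0 := (valuation_lt_one_iff hφ ⟨aeval y p, aeval_mem hconst hφ hy p⟩).mp hlt
  rw [resMap_aeval hconst hφ hy p] at h0
  have hint : IsIntegral (ResidueField A) (resMap hφ ⟨y, hy⟩) :=
    ⟨p.map (residue A), hp.map _, h0⟩
  obtain ⟨cb, hcb⟩ :=
    Fermat.Agent.S18.Core.ConstOfIntegral.exists_eq_C_of_isAlgebraic hint.isAlgebraic
  obtain ⟨r, rfl⟩ := residue_surjective cb
  refine ⟨r, ?_⟩
  have hmem : y - algebraMap A F r ∈ gaussSubring hφ :=
    sub_mem hy (algebraMap_mem hconst hφ r)
  have h2 := (valuation_lt_one_iff hφ ⟨y - algebraMap A F r, hmem⟩).mpr ?_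
  · exact h2
  have h3 : (⟨y - algebraMap A F r, hmem⟩ : gaussSubring hφ) =
      ⟨y, hy⟩ - toO hconst hφ r := rfl
  rw [h3, map_sub, resMap_toO, hcb, sub_self]

/-- `hκ` in the exact shape of `Charts.conn`. -/
theorem hkappa :
    ∀ y ∈ gaussSubring hφ, ∀ p : A[X], p.Monic →
      (gaussSubring hφ).valuation (aeval y p) < 1 →
      ∃ r : A, (gaussSubring hφ).valuation (y - algebraMap A F r) < 1 :=
  fun _ hy p hp hlt => exists_sub_lt_one_of_monic hconst hφ hy p hp hlt

end Chart

/-! ### Transfer from `L(J)` to `L(τ) ⊇ L(J)` -/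

section Transfer

variable {L F : Type*} [Field L] [Field F] [Algebra L F]

/-- uniqueness of a valuation subring over its restriction to `K₀` implies uniqueness over its
restriction to any larger intermediate field. -/
theorem huniq_of_le {K₀ K : IntermediateField L F} (hle : K₀ ≤ K) (O : ValuationSubring F)
    (h0 : ∀ O'' : ValuationSubring F,
      O''.comap (algebraMap K₀ F) = O.comap (algebraMap K₀ F) → O'' = O) :
    ∀ O'' : ValuationSubring F,
      O''.comap (algebraMap K F) = O.comap (algebraMap K F) → O'' = O := by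
  intro O'' h
  apply h0
  ext x
  have hx := SetLike.ext_iff.mp h ⟨(x : F), hle x.2⟩
  exact hx

/-- finite-dimensionality passes to a larger base. -/
theorem finiteDimensional_of_le {K₀ K : IntermediateField L F} (hle : K₀ ≤ K)
    [FiniteDimensional K₀ F] : FiniteDimensional K F := by
  let _ : Algebra K₀ K := (IntermediateField.inclusion hle).toRingHom.toAlgebra
  have : IsScalarTower K₀ K F := IsScalarTower.of_algebraMap_eq (fun _ => rfl)
  exact Module.Finite.of_restrictScalars_finite K₀ K F

/-- in characteristic zero every algebraic extension is separable. -/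
theorem isSeparable_of_charZero [CharZero L] (K : IntermediateField L F)
    [Algebra.IsAlgebraic K F] : Algebra.IsSeparable K F :=
  Algebra.IsAlgebraic.isSeparable_of_perfectField

end Transfer

end Fermat.Agent.S18.Inst.GaussChart
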