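import Mathlib
import Fermat.Agent.S18.Inst.GaussChart

/-!
# S18, INST layer: the hypothesis bundle `CoordData`

`CoordData A π O t` collects everything that `Core/Charts` (C1), `Core/StarCharts` (C3) and
`Purity/Chart` (A4) need to know about a function field `F ⊇ L`, its Gauss-type valuation subring
`O` and a coordinate `t ∈ F`, with `R := ↥A` a discrete valuation subring of `L`:

* `good`      : `Charts.GoodCoord π O t` (`R ⊆ O`, `v(π) < 1`, `e = 1`, `t` a unit of `O` with
                 residually transcendental reduction, in the elementwise shape);
* `transc`    : `t` is transcendental over `↥A` (hence over `L`);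
* `finite`    : `[F : L(t)] < ∞`;
* `uniq`      : `O` is the unique valuation subring of `F` over its restriction to `L(t)`;
* `intClosed` : `↥A` is integrally closed in `F`;
* `resClosed` : the residue field of `A` is algebraically closed in the residue field of `O`.

`coordData_of_gauss` fills the bundle for the Gauss valuation subring of `Gauss/Basic`, from:
a coordinate `t ∈ O` with transcendental reduction, and an intermediate field `K₀ ≤ L(t)`
(in practice `K₀ = L(J)`) over which `F` is finite and `O` is unique.
-/

set_option autoImplicit false

noncomputable section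

namespace Fermat.Agent.S18.Inst.Bundle

open Polynomial IsLocalRing IntermediateField
open Fermat.Agent.S18.Gauss.Basic Fermat.Agent.S18.Core.Charts
open Fermat.Agent.S18.Inst.GaussChart

/-- The INST hypothesis bundle for a coordinate `t` of `F` (see the file header). -/
structure CoordData {L : Type*} [Field L] (A : ValuationSubring L)
    {F : Type*} [Field F] [Algebra L F] (π : A) (O : ValuationSubring F) (t : F) : Prop where
  good : GoodCoord π O t
  transc : Transcendental A t
  finite : FiniteDimensional L⟮t⟯ F
  uniq : ∀ O' : ValuationSubring F,
    O'.comap (algebraMap L⟮t⟯ F) = O.comap (algebraMap L⟮t⟯ F) → O' = O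
  intClosed : ∀ x : F, IsIntegral A x → ∃ r : A, algebraMap A F r = x
  resClosed : ∀ y ∈ O, ∀ p : A[X], p.Monic → O.valuation (aeval y p) < 1 →
    ∃ r : A, O.valuation (y - algebraMap A F r) < 1

namespace CoordData

variable {L : Type*} [Field L] {A : ValuationSubring L}
  {F : Type*} [Field F] [Algebra L F] {π : A} {O : ValuationSubring F} {t : F}

theorem algebraic (h : CoordData A π O t) : Algebra.IsAlgebraic L⟮t⟯ F :=
  have := h.finite
  Algebra.IsAlgebraic.of_finite L⟮t⟯ F

theorem separable [CharZero L] (h : CoordData A π O t) : Algebra.IsSeparable L⟮t⟯ F :=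
  have := h.algebraic
  isSeparable_of_charZero L⟮t⟯

/-- `t` is transcendental over `L`. -/
theorem transc_field (h : CoordData A π O t) : Transcendental L t :=
  fun halg => h.transc ((IsFractionRing.isAlgebraic_iff A L F).mpr halg)

end CoordData

section Gauss

variable {L : Type*} [Field L] {A : ValuationSubring L}
  {F : Type*} [Field F] [Algebra L F] {φ : F →+* LaurentSeries L}

/-- **The bundle for the Gauss valuation subring.** `t ∈ O` with reduction transcendental over
`κ`, and an intermediate field `K₀ ≤ L(t)` (e.g. `L(J)`) over which `F` is finite and `O` is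
unique. -/
theorem coordData_of_gauss (hconst : ∀ c : L, φ (algebraMap L F c) = HahnSeries.C c)
    (hφ : Scalable A φ) [IsDiscreteValuationRing A] {π : A} (hπ : Irreducible π)
    {t : F} (ht : t ∈ gaussSubring hφ)
    (htr : Transcendental (ResidueField A) (resMap hφ ⟨t, ht⟩))
    {K₀ : IntermediateField L F} (hle : K₀ ≤ L⟮t⟯) [FiniteDimensional K₀ F]
    (huniq0 : ∀ O' : ValuationSubring F,
      O'.comap (algebraMap K₀ F) = (gaussSubring hφ).comap (algebraMap K₀ F) →
        O' = gaussSubring hφ) :
    CoordData A π (gaussSubring hφ) t where
  good := goodCoord hconst hφ hπ ht htr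
  transc := by
    have h := goodCoord hconst hφ hπ ht htr
    have hL : Transcendental L t := transcendental_iff_injective.mpr (aeval_injective (L := L) h)
    exact fun halg => hL ((IsFractionRing.isAlgebraic_iff A L F).mp halg)
  finite := finiteDimensional_of_le hle
  uniq := huniq_of_le hle _ huniq0
  intClosed := exists_algebraMap_eq_of_isIntegral hconst
  resClosed := hkappa hconst hφ

end Gauss

end Fermat.Agent.S18.Inst.Bundle
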