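import Mathlib
import Fermat.Agent.S18.Inst.Bundle
import Fermat.Agent.S18.Haupt.DegreeOverT

/-!
# S18, INST layer: a Hauptmodul-type coordinate `t` with `J * D(t) = Rn(t)` (level-free)

Generic part of the instantiation at `t = t₄` (`4 ∣ M'`) and `t = t₉` (`9 ∣ M'`).

* `section Degree` : for an intermediate field `E` of `Ω / k` containing `J` and `t`, with `t`
  transcendental over `k` and `J * D(t) = Rn(t)`, `Rn, D` coprime: `k(J) ≤ k(t)` inside `E`,
  `[E : k(J)] = max (deg Rn) (deg D) * [E : k(t)]`, and finiteness/separability of `E` over `k(J)`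
  pass to `k(t)`.  Used in characteristic `0` (`E = F_{M',L}`) and on the residue side
  (`E = F_{M',κ}`).
* `section Gauss` : for `F` an intermediate field of `L((q)) / L` whose nonzero elements are
  scalable, `t ∈ F` with an integral expansion `tA` whose reduction is transcendental over `κ`:
  `t ∈ O`, `ρ t = red tA`, and the bundle `CoordData A π O t` (from finiteness and uniqueness over
  `L(J)`).
-/

set_option autoImplicit false

noncomputable section

namespace Fermat.Agent.S18.Inst.Haupt

open Polynomial IsLocalRing IntermediateField ModularCurve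
open Fermat.Agent.S18.Gauss.Basic Fermat.Agent.S18.Core.Charts
open Fermat.Agent.S18.Inst.GaussChart Fermat.Agent.S18.Inst.Bundle
open Fermat.Agent.S18.Haupt

section Degree

variable {k Ω : Type*} [Field k] [Field Ω] [Algebra k Ω] (E : IntermediateField k Ω)
  {J t : Ω} (hJ : J ∈ E) (ht : t ∈ E)

/-- transcendence passes to the element of the intermediate field. -/
theorem transcendental_mk (httr : Transcendental k t) : Transcendental k (⟨t, ht⟩ : E) := by
  intro halg
  apply httr
  have h := (isAlgebraic_algHom_iff E.val E.val.injective).mpr halg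
  exact h

/-- the relation `J * D(t) = Rn(t)` inside `E`. -/
theorem rel_mk (Rn D : k[X]) (hrel : J * aeval t D = aeval t Rn) :
    (⟨J, hJ⟩ : E) * aeval (⟨t, ht⟩ : E) D = aeval (⟨t, ht⟩ : E) Rn := by
  apply Subtype.ext
  show J * ((aeval (⟨t, ht⟩ : E) D : E) : Ω) = ((aeval (⟨t, ht⟩ : E) Rn : E) : Ω)
  rw [← IntermediateField.aeval_coe, ← IntermediateField.aeval_coe]
  exact hrel

variable (httr : Transcendental k t) (Rn D : k[X]) (hD : D ≠ 0)
  (hrel : J * aeval t D = aeval t Rn)

include httr hD hrel in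
/-- `k(J) ≤ k(t)` inside `E`. -/
theorem adjoin_le : k⟮(⟨J, hJ⟩ : E)⟯ ≤ k⟮(⟨t, ht⟩ : E)⟯ :=
  DegreeOverT.adjoin_le_adjoin _ _ (transcendental_mk E ht httr) Rn D hD (rel_mk E hJ ht Rn D hrel)

include httr hD hrel in
/-- `[E : k(J)] = max (deg Rn) (deg D) * [E : k(t)]`. -/
theorem finrank_eq_mul (hcop : IsCoprime Rn D) :
    Module.finrank k⟮(⟨J, hJ⟩ : E)⟯ E =
      max Rn.natDegree D.natDegree * Module.finrank k⟮(⟨t, ht⟩ : E)⟯ E :=
  DegreeOverT.finrank_eq_mul _ _ (transcendental_mk E ht httr) Rn D hcop hD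
    (rel_mk E hJ ht Rn D hrel)

include httr hD hrel in
/-- finiteness over `k(J)` gives finiteness over `k(t)`. -/
theorem finiteDimensional [FiniteDimensional k⟮(⟨J, hJ⟩ : E)⟯ E] :
    FiniteDimensional k⟮(⟨t, ht⟩ : E)⟯ E :=
  finiteDimensional_of_le (adjoin_le E hJ ht httr Rn D hD hrel)

include httr hD hrel in
/-- separability over `k(J)` gives separability over `k(t)`. -/
theorem isSeparable [Algebra.IsSeparable k⟮(⟨J, hJ⟩ : E)⟯ E] :
    Algebra.IsSeparable k⟮(⟨t, ht⟩ : E)⟯ E := by
  have hle := adjoin_le E hJ ht httr Rn D hD hrel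
  let _ : Algebra k⟮(⟨J, hJ⟩ : E)⟯ k⟮(⟨t, ht⟩ : E)⟯ :=
    (IntermediateField.inclusion hle).toRingHom.toAlgebra
  have : IsScalarTower k⟮(⟨J, hJ⟩ : E)⟯ k⟮(⟨t, ht⟩ : E)⟯ E :=
    IsScalarTower.of_algebraMap_eq (fun _ => rfl)
  exact Algebra.isSeparable_tower_top_of_isSeparable k⟮(⟨J, hJ⟩ : E)⟯ k⟮(⟨t, ht⟩ : E)⟯ E

end Degree

section Gauss

variable {L : Type*} [Field L] {A : ValuationSubring L}
  (F : IntermediateField L (LaurentSeries L))

/-- the inclusion `F → L((q))` is `C` on constants. -/
theorem val_algebraMap (c : L) :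
    (F.val : F →+* LaurentSeries L) (algebraMap L F c) = HahnSeries.C c := by
  show algebraMap L (LaurentSeries L) c = HahnSeries.C c
  exact Fermat.Agent.S18.Core.ConstOfIntegral.algebraMap_laurent_eq_C c

variable {F} (hφ : Scalable A (F.val : F →+* LaurentSeries L))
  {tL : LaurentSeries L} (ht : tL ∈ F) (tA : LaurentSeries A) (htA : incl A tA = tL)

include htA in
/-- an element of `F` with an integral expansion lies in the Gauss valuation subring. -/
theorem mem_of_incl : (⟨tL, ht⟩ : F) ∈ gaussSubring hφ := by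
  rw [mem_gaussSubring_iff]
  show IsInt A tL
  rw [← htA]
  exact isInt_incl A tA

/-- ... and its reduction is the coefficientwise reduction of the expansion. -/
theorem resMap_of_incl' :
    resMap hφ ⟨⟨tL, ht⟩, mem_of_incl hφ ht tA htA⟩ = red A tA :=
  resMap_of_incl hφ _ (P := tA) htA.symm

variable [IsDiscreteValuationRing A] {π : A} (hπ : Irreducible π)
  (htr : Transcendental (ResidueField A) (red A tA))
  {JL : LaurentSeries L} (hJ : JL ∈ F) (Rn D : L[X]) (hD : D ≠ 0)
  (hrel : JL * aeval tL D = aeval tL Rn)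

include htA hπ htr hD hrel in
/-- **The INST bundle for a Hauptmodul-type coordinate.** -/
theorem coordData
    [FiniteDimensional L⟮(⟨JL, hJ⟩ : F)⟯ F]
    (huniq0 : ∀ O' : ValuationSubring F,
      O'.comap (algebraMap L⟮(⟨JL, hJ⟩ : F)⟯ F) =
        (gaussSubring hφ).comap (algebraMap L⟮(⟨JL, hJ⟩ : F)⟯ F) → O' = gaussSubring hφ) :
    CoordData A π (gaussSubring hφ) (⟨tL, ht⟩ : F) := by
  have hmem := mem_of_incl hφ ht tA htA
  have htr' : Transcendental (ResidueField A) (resMap hφ ⟨⟨tL, ht⟩, hmem⟩) := by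
    rw [resMap_of_incl' hφ ht tA htA]
    exact htr
  have hgood := goodCoord (val_algebraMap F) hφ hπ hmem htr'
  have httrF : Transcendental L (⟨tL, ht⟩ : F) :=
    transcendental_iff_injective.mpr (aeval_injective (L := L) hgood)
  have httr : Transcendental L tL := by
    intro halg
    apply httrF
    exact (isAlgebraic_algHom_iff F.val F.val.injective).mp halg
  have hle := adjoin_le F hJ ht httr Rn D hD hrel
  exact coordData_of_gauss (val_algebraMap F) hφ hπ hmem htr' hle huniq0

end Gauss

end Fermat.Agent.S18.Inst.Haupt
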