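import Mathlib
import Fermat.Agent.S18.Inst.Haupt
import Fermat.Agent.S18.Gauss.Adapter
import Fermat.Agent.S18.Haupt.Level4Gauss
import Fermat.Agent.S18.Haupt.Level4Degree
import Fermat.Agent.S18.Trans.ConstK

/-!
# S18, INST layer at level `4 ∣ M`: the coordinate `t = t₄`

`L` any field of characteristic `0` (`[Algebra ℚ L]`), `A` a discrete valuation subring of `L`
with residue field `κ`, `2 ≠ 0` in `κ`; `F := laurentBaseChange L (modularFunctionFieldFull M)`,
`O := gaussSubring hφ` for `hφ : Scalable A F.val` (block D1b), `t := ⟨t4C L, _⟩ : F`.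

* `tEl`, `tEl_mem`, `resMap_tEl : ρ t = t4C κ`;
* `coordData : CoordData A π O t` from finiteness and uniqueness over `L(J)` (block D2);
* `six_mul_finrank : [F : L(J)] = 6 * [F : L(t)]`;
* residue side, `E := modularFunctionFieldFullC κ M`, `t̄ := ⟨t4C κ, _⟩ : E`:
  `six_mul_finrank_res : [E : κ(j̄)] = 6 * [E : κ(t̄)]`, `isSeparable_res`, `finiteDimensional_res`.
-/

set_option autoImplicit false

noncomputable section

namespace Fermat.Agent.S18.Inst.Level4

open Polynomial IsLocalRing IntermediateField ModularCurve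
open Fermat.Agent.S18.Gauss.Basic Fermat.Agent.S18.Gauss.Residue
open Fermat.Agent.S18.Inst.Bundle Fermat.Agent.S18.Haupt Fermat.Agent.S18.Haupt.Level4Degree
open Fermat.Agent.S18.Trans

section CharZero

variable {L : Type*} [Field L] [Algebra ℚ L] {A : ValuationSubring L} (M : ℕ) [NeZero M]
  (h4 : 4 ∣ M)

/-- the Hauptmodul `t₄` as an element of `F_{M,L}`. -/
def tEl : laurentBaseChange L (modularFunctionFieldFull M) :=
  ⟨t4C L, t4C_mem_laurentBaseChange L M h4⟩

@[simp]
theorem coe_tEl : ((tEl (L := L) M h4 : laurentBaseChange L (modularFunctionFieldFull M)) :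
    LaurentSeries L) = t4C L := rfl

variable {M}
variable (hφ : Scalable A
  ((laurentBaseChange L (modularFunctionFieldFull M)).val :
    laurentBaseChange L (modularFunctionFieldFull M) →+* LaurentSeries L))

theorem incl_t4C : incl A (t4C A) = t4C L := coeffMap_subtype_t4C A

theorem red_t4C : red A (t4C A) = t4C (ResidueField A) := coeffMap_t4C _

/-- `t₄` lies in the Gauss valuation subring. -/
theorem tEl_mem : tEl (L := L) M h4 ∈ gaussSubring hφ :=
  Inst.Haupt.mem_of_incl hφ (t4C_mem_laurentBaseChange L M h4) (t4C A) incl_t4C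

/-- the reduction of `t₄` is `t4C κ = q⁻¹ + …`. -/
theorem resMap_tEl :
    resMap hφ ⟨tEl (L := L) M h4, tEl_mem h4 hφ⟩ = t4C (ResidueField A) := by
  have h := Inst.Haupt.resMap_of_incl' hφ (t4C_mem_laurentBaseChange L M h4) (t4C A) incl_t4C
  rw [red_t4C] at h
  exact h

/-- **The INST bundle at level `4 ∣ M`.** -/
theorem coordData [IsDiscreteValuationRing A] {π : A} (hπ : Irreducible π)
    (hJ : jqModC L ∈ laurentBaseChange L (modularFunctionFieldFull M))
    [FiniteDimensional L⟮(Jel hJ)⟯ (laurentBaseChange L (modularFunctionFieldFull M))]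
    (huniq0 : ∀ O' : ValuationSubring (laurentBaseChange L (modularFunctionFieldFull M)),
      O'.comap (algebraMap L⟮(Jel hJ)⟯ (laurentBaseChange L (modularFunctionFieldFull M))) =
        (gaussSubring hφ).comap
          (algebraMap L⟮(Jel hJ)⟯ (laurentBaseChange L (modularFunctionFieldFull M))) →
        O' = gaussSubring hφ) :
    CoordData A π (gaussSubring hφ) (tEl (L := L) M h4) := by
  refine Inst.Haupt.coordData hφ (t4C_mem_laurentBaseChange L M h4) (t4C A) incl_t4C hπ ?_ hJ
    (Rn L) (Dp L) (Dp_ne_zero (k := L)) (rel_t4C L) huniq0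
  rw [red_t4C]
  exact transcendental_t4C _

/-- `[F : L(J)] = 6 * [F : L(t)]`. -/
theorem six_mul_finrank
    (hJ : jqModC L ∈ laurentBaseChange L (modularFunctionFieldFull M)) :
    Module.finrank L⟮(Jel hJ)⟯ (laurentBaseChange L (modularFunctionFieldFull M)) =
      6 * Module.finrank L⟮(tEl (L := L) M h4)⟯
        (laurentBaseChange L (modularFunctionFieldFull M)) := by
  have h2 : (2 : L) ≠ 0 := by
    have : CharZero L := algebraRat.charZero L
    exact two_ne_zero
  have h := Inst.Haupt.finrank_eq_mul (laurentBaseChange L (modularFunctionFieldFull M)) hJ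
    (t4C_mem_laurentBaseChange L M h4) (transcendental_t4C L) (Rn L) (Dp L) (Dp_ne_zero (k := L))
    (rel_t4C L) (isCoprime_Rn_Dp (k := L) h2)
  rw [max_deg] at h
  exact h

end CharZero

section Residue

variable (κ : Type*) [Field κ] (M : ℕ) (h2 : (2 : κ) ≠ 0)
  (htκ : t4C κ ∈ modularFunctionFieldFullC κ M)

/-- `t̄` as an element of `F_{M,κ}`. -/
def tBar : modularFunctionFieldFullC κ M := ⟨t4C κ, htκ⟩

include h2 in
/-- `[F_{M,κ} : κ(j̄)] = 6 * [F_{M,κ} : κ(t̄)]`. -/
theorem six_mul_finrank_res :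
    Module.finrank κ⟮jBar κ M⟯ (modularFunctionFieldFullC κ M) =
      6 * Module.finrank κ⟮tBar κ M htκ⟯ (modularFunctionFieldFullC κ M) := by
  have h := Inst.Haupt.finrank_eq_mul (modularFunctionFieldFullC κ M) (jqModC_mem_full κ M) htκ
    (transcendental_t4C κ) (Rn κ) (Dp κ) (Dp_ne_zero (k := κ)) (rel_t4C κ) (isCoprime_Rn_Dp (k := κ) h2)
  rw [max_deg] at h
  exact h

/-- finiteness over `κ(j̄)` gives finiteness over `κ(t̄)`. -/
theorem finiteDimensional_res
    [FiniteDimensional κ⟮jBar κ M⟯ (modularFunctionFieldFullC κ M)] :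
    FiniteDimensional κ⟮tBar κ M htκ⟯ (modularFunctionFieldFullC κ M) :=
  have : FiniteDimensional
      κ⟮(⟨jqModC κ, jqModC_mem_full κ M⟩ : modularFunctionFieldFullC κ M)⟯
      (modularFunctionFieldFullC κ M) :=
    ‹FiniteDimensional κ⟮jBar κ M⟯ (modularFunctionFieldFullC κ M)›
  Inst.Haupt.finiteDimensional (modularFunctionFieldFullC κ M) (jqModC_mem_full κ M) htκ
    (transcendental_t4C κ) (Rn κ) (Dp κ) (Dp_ne_zero (k := κ)) (rel_t4C κ)

/-- separability over `κ(j̄)` gives separability over `κ(t̄)`. -/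
theorem isSeparable_res
    [Algebra.IsSeparable κ⟮jBar κ M⟯ (modularFunctionFieldFullC κ M)] :
    Algebra.IsSeparable κ⟮tBar κ M htκ⟯ (modularFunctionFieldFullC κ M) :=
  have : Algebra.IsSeparable
      κ⟮(⟨jqModC κ, jqModC_mem_full κ M⟩ : modularFunctionFieldFullC κ M)⟯
      (modularFunctionFieldFullC κ M) :=
    ‹Algebra.IsSeparable κ⟮jBar κ M⟯ (modularFunctionFieldFullC κ M)›
  Inst.Haupt.isSeparable (modularFunctionFieldFullC κ M) (jqModC_mem_full κ M) htκ
    (transcendental_t4C κ) (Rn κ) (Dp κ) (Dp_ne_zero (k := κ)) (rel_t4C κ)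

end Residue

end Fermat.Agent.S18.Inst.Level4
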