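import Mathlib
import Fermat.Agent.S18.Inst.Level4
import Fermat.Agent.S18.Gauss.ModularH
import Fermat.Agent.S18.Gauss.Separable

/-!
# S18, INST layer at level `4 ∣ M`: the UNCONDITIONAL package

`L` any field of characteristic `0` (`[Algebra ℚ L]`), `A` a valuation subring of `L` whose
residue field `κ` has characteristic `ℓ ∤ M`, `4 ∣ M`;
`FL := laurentBaseChange L (modularFunctionFieldFull M)`, `O := ModularH.gaussVS A hℓM`
(`= gaussSubring (ModularH.scalable A hℓM)`), `ρ := ModularH.gaussRes A hℓM`,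
`t := Level4.tEl M h4 = ⟨t4C L, _⟩`, `E := modularFunctionFieldFullC κ M`, `t̄ := ⟨t4C κ, _⟩`.

* `coordData4 : CoordData A π O t` (for `A` a DVR with uniformiser `π`);
* `six_mul_finrank4 : 6 * [FL : L(t)] = ψ(M)`;
* `t4C_mem_full : t4C κ ∈ E`, `six_mul_finrank4_res : 6 * [E : κ(t̄)] = ψ(M)`,
  `finrank4_res_eq : [E : κ(t̄)] = [FL : L(t)]`, `finiteDimensional4_res`, `isSeparable4_res`;
* the residue map corestricted to `E`: `rho4 : O →+* E` with `rho4_surjective`,
  `rho4_eq_zero_iff`, `rho4_algebraMap`, `rho4_tEl`.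
-/

set_option autoImplicit false

noncomputable section

namespace Fermat.Agent.S18.Inst.Level4Final

open Polynomial IsLocalRing IntermediateField ModularCurve
open Fermat.Agent.S18.Gauss.Basic Fermat.Agent.S18.Gauss.Residue
open Fermat.Agent.S18.Gauss
open Fermat.Agent.S18.Inst.Bundle Fermat.Agent.S18.Haupt
open Fermat.Agent.S18.Trans Fermat.Agent.S18.Inst.Level4

variable {L : Type*} [Field L] [Algebra ℚ L] {M : ℕ} [NeZero M] (h4 : 4 ∣ M)
  (A : ValuationSubring L) {ℓ : ℕ} [Fact ℓ.Prime] [CharP (ResidueField A) ℓ] (hℓM : ¬ ℓ ∣ M)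

omit [Algebra ℚ L] [NeZero M] [Fact ℓ.Prime] in
include h4 hℓM in
/-- `2 ≠ 0` in the residue field (`ℓ ∤ M`, `4 ∣ M`). -/
theorem two_ne_zero_res : (2 : ResidueField A) ≠ 0 := by
  intro h
  have h2 : ((2 : ℕ) : ResidueField A) = 0 := by exact_mod_cast h
  rw [CharP.cast_eq_zero_iff (ResidueField A) ℓ] at h2
  exact hℓM (h2.trans ((by norm_num : 2 ∣ 4).trans h4))

/-- **The INST bundle at level `4 ∣ M`, unconditional.** -/
theorem coordData4 [IsDiscreteValuationRing A] {π : A} (hπ : Irreducible π) :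
    CoordData A π (ModularH.gaussVS A hℓM) (tEl (L := L) M h4) :=
  have := Concrete.finiteDimensional L M
  Level4.coordData h4 (ModularH.scalable A hℓM) hπ (Concrete.jqModC_mem L M)
    (Concrete.eq_of_comap_eq (ModularH.isGaussRed A hℓM) hℓM)

/-- `6 * [FL : L(t)] = ψ(M)`. -/
theorem six_mul_finrank4 :
    6 * Module.finrank L⟮(tEl (L := L) M h4)⟯
      (laurentBaseChange L (modularFunctionFieldFull M)) = dedekindPsi M := by
  rw [← Level4.six_mul_finrank h4 (Concrete.jqModC_mem L M), Concrete.finrank_eq_psi]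

/-- `t₄ ∈ O`. -/
theorem tEl_mem4 : tEl (L := L) M h4 ∈ ModularH.gaussVS A hℓM :=
  Level4.tEl_mem h4 (ModularH.scalable A hℓM)

/-- `ρ t₄ = t4C κ`. -/
theorem gaussRes_tEl :
    ModularH.gaussRes A hℓM ⟨tEl (L := L) M h4, tEl_mem4 h4 A hℓM⟩ = t4C (ResidueField A) :=
  Level4.resMap_tEl h4 (ModularH.scalable A hℓM)

include h4 hℓM in
/-- `t̄₄ ∈ F_{M,κ}`. -/
theorem t4C_mem_full :
    t4C (ResidueField A) ∈ modularFunctionFieldFullC (ResidueField A) M := by
  rw [← gaussRes_tEl h4 A hℓM]
  exact Concrete.map_mem_full (ModularH.isGaussRed A hℓM) hℓM _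

/-- `6 * [F_{M,κ} : κ(t̄)] = ψ(M)`. -/
theorem six_mul_finrank4_res :
    6 * Module.finrank
      (ResidueField A)⟮tBar (ResidueField A) M (t4C_mem_full h4 A hℓM)⟯
      (modularFunctionFieldFullC (ResidueField A) M) = dedekindPsi M := by
  rw [← Level4.six_mul_finrank_res (ResidueField A) M (two_ne_zero_res h4 A hℓM)
    (t4C_mem_full h4 A hℓM)]
  exact Concrete.finrank_full (ModularH.isGaussRed A hℓM) hℓM

/-- `[F_{M,κ} : κ(t̄)] = [FL : L(t)]`. -/
theorem finrank4_res_eq :
    Module.finrank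
      (ResidueField A)⟮tBar (ResidueField A) M (t4C_mem_full h4 A hℓM)⟯
      (modularFunctionFieldFullC (ResidueField A) M) =
    Module.finrank L⟮(tEl (L := L) M h4)⟯
      (laurentBaseChange L (modularFunctionFieldFull M)) := by
  have h1 := six_mul_finrank4_res h4 A hℓM
  have h2 := six_mul_finrank4 (L := L) h4
  omega

/-- `F_{M,κ}` is finite over `κ(t̄)`. -/
theorem finiteDimensional4_res :
    FiniteDimensional
      (ResidueField A)⟮tBar (ResidueField A) M (t4C_mem_full h4 A hℓM)⟯
      (modularFunctionFieldFullC (ResidueField A) M) :=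
  have : FiniteDimensional (ResidueField A)⟮jBar (ResidueField A) M⟯
      (modularFunctionFieldFullC (ResidueField A) M) :=
    Separable.finiteDimensional_full (ℓ := ℓ) hℓM
  Level4.finiteDimensional_res (ResidueField A) M (t4C_mem_full h4 A hℓM)

/-- `F_{M,κ}` is separable over `κ(t̄)`. -/
theorem isSeparable4_res :
    Algebra.IsSeparable
      (ResidueField A)⟮tBar (ResidueField A) M (t4C_mem_full h4 A hℓM)⟯
      (modularFunctionFieldFullC (ResidueField A) M) :=
  have : Algebra.IsSeparable (ResidueField A)⟮jBar (ResidueField A) M⟯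
      (modularFunctionFieldFullC (ResidueField A) M) :=
    Separable.isSeparable_full (ℓ := ℓ) hℓM
  Level4.isSeparable_res (ResidueField A) M (t4C_mem_full h4 A hℓM)

/-! ### the residue map with values in `E = F_{M,κ}` -/

/-- the residue map of the Gauss valuation, corestricted to `F_{M,κ}`. -/
def rho4 : ↥(ModularH.gaussVS A hℓM) →+* ↥(modularFunctionFieldFullC (ResidueField A) M) :=
  (ModularH.gaussRes A hℓM).codRestrict (modularFunctionFieldFullC (ResidueField A) M)
    (fun x => Concrete.map_mem_full (ModularH.isGaussRed A hℓM) hℓM x)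

@[simp]
theorem coe_rho4 (x : ↥(ModularH.gaussVS A hℓM)) :
    ((rho4 A hℓM x : ↥(modularFunctionFieldFullC (ResidueField A) M)) :
      LaurentSeries (ResidueField A)) = ModularH.gaussRes A hℓM x := rfl

theorem rho4_surjective : Function.Surjective (rho4 A hℓM) := by
  intro y
  obtain ⟨x, hx⟩ := Concrete.exists_map_eq_of_mem_full (ModularH.isGaussRed A hℓM) y.2
  exact ⟨x, Subtype.ext hx⟩

theorem rho4_eq_zero_iff (x : ↥(ModularH.gaussVS A hℓM)) :
    rho4 A hℓM x = 0 ↔ (ModularH.gaussVS A hℓM).valuation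
      (x : ↥(laurentBaseChange L (modularFunctionFieldFull M))) < 1 := by
  rw [← Subtype.coe_inj, coe_rho4]
  exact (GaussChart.valuation_lt_one_iff (ModularH.scalable A hℓM) x).symm

theorem rho4_algebraMap (r : A)
    (hr : algebraMap A ↥(laurentBaseChange L (modularFunctionFieldFull M)) r ∈
      ModularH.gaussVS A hℓM) :
    rho4 A hℓM ⟨algebraMap A ↥(laurentBaseChange L (modularFunctionFieldFull M)) r, hr⟩ =
      algebraMap (ResidueField A) ↥(modularFunctionFieldFullC (ResidueField A) M)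
        (residue A r) := by
  apply Subtype.ext
  rw [coe_rho4]
  have h := resMap_algebraMap
    (Inst.Haupt.val_algebraMap (laurentBaseChange L (modularFunctionFieldFull M)))
    (ModularH.scalable A hℓM) r hr
  refine h.trans ?_
  exact (Fermat.Agent.S18.Core.ConstOfIntegral.algebraMap_laurent_eq_C (residue A r)).symm

/-- `ρ t = t̄`. -/
theorem rho4_tEl (ht : tEl (L := L) M h4 ∈ ModularH.gaussVS A hℓM) :
    rho4 A hℓM ⟨tEl (L := L) M h4, ht⟩ =
      tBar (ResidueField A) M (t4C_mem_full h4 A hℓM) :=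
  Subtype.ext (gaussRes_tEl h4 A hℓM)

end Fermat.Agent.S18.Inst.Level4Final
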