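/-
S18, INST layer, level 9 (helper13): the concrete `Inst.Bundle.CoordData` for
`FL = laurentBaseChange L (modularFunctionFieldFull M)`, `9 ∣ M`, residue characteristic `ℓ ∤ M`,
coordinate `t = t₉` (helper21's `Haupt9.t9C L`), for ANY scalability proof
`hφ : Scalable A FL.val` (helper18 `ModularH.scalable`, helper4 `RatFormFL.scalable`).
-/
import Mathlib
import Fermat.Agent.S18.Inst.Bundle
import Fermat.Agent.S18.Gauss.Concrete
import Fermat.Agent.S18.Gauss.Adapter
import Fermat.Agent.S18.Haupt.Level9GaussFinal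
import Fermat.Agent.S18.Haupt9.Degree

set_option autoImplicit false
set_option linter.unusedSectionVars false

namespace Fermat.Agent.S18.Inst.Level9

open ModularCurve Polynomial IntermediateField IsLocalRing
open Fermat.Agent.S18.Gauss.Basic Fermat.Agent.S18.Gauss.Residue
open Fermat.Agent.S18.Gauss.Concrete
open Fermat.Agent.S18.Haupt9 (t9C)
open Fermat.Agent.S18.Haupt.Level9Final

noncomputable section

set_option synthInstance.maxHeartbeats 400000

variable {L : Type*} [Field L] [Algebra ℚ L] (M : ℕ) [NeZero M] (h9 : 9 ∣ M)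

/-- `t₉` as an element of `FL`. -/
def t9el : ↥(laurentBaseChange L (modularFunctionFieldFull M)) :=
  ⟨t9C L, t9C_mem_laurentBaseChange L M h9⟩

@[simp] theorem coe_t9el :
    ((t9el (L := L) M h9 : ↥(laurentBaseChange L (modularFunctionFieldFull M))) :
      LaurentSeries L) = t9C L := rfl

/-- constants of `FL` are constant series. -/
theorem hconst (c : L) :
    (laurentBaseChange L (modularFunctionFieldFull M)).val
      (algebraMap L ↥(laurentBaseChange L (modularFunctionFieldFull M)) c) = HahnSeries.C c := by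
  show algebraMap L (LaurentSeries L) c = HahnSeries.C c
  rw [ModularCurve.algebraMap_laurentSeries_eq_single]
  rfl

/-- `J t⁹ (t² + 9t + 27) = (t + 9)³ (t³ + 243t² + 2187t + 6561)³` inside `FL`. -/
theorem Jel_mul_t9el :
    Jel (Fermat.Agent.S18.Gauss.Concrete.jqModC_mem L M) * (t9el (L := L) M h9 ^ 9 *
        (t9el (L := L) M h9 ^ 2 + 9 * t9el (L := L) M h9 + 27)) =
      (t9el (L := L) M h9 + 9) ^ 3 * (t9el (L := L) M h9 ^ 3 + 243 * t9el (L := L) M h9 ^ 2 +
        2187 * t9el (L := L) M h9 + 6561) ^ 3 := by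
  have h := Fermat.Agent.S18.Haupt9.jqModC_mul9 L
  apply (laurentBaseChange L (modularFunctionFieldFull M)).val.injective
  simp only [map_mul, map_pow, map_add, map_ofNat]
  exact h

theorem t9el_ne_zero : t9el (L := L) M h9 ≠ 0 := fun h =>
  Fermat.Agent.S18.Haupt9.t9C_ne_zero L (congrArg Subtype.val h)

theorem t9el_quad_ne_zero :
    t9el (L := L) M h9 ^ 2 + 9 * t9el (L := L) M h9 + 27 ≠ 0 := fun h => by
  have h' := congrArg (laurentBaseChange L (modularFunctionFieldFull M)).val h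
  simp only [map_mul, map_pow, map_add, map_ofNat, map_zero] at h'
  exact Fermat.Agent.S18.Haupt9.t9C_quad_ne_zero L h'

/-- `J ∈ L(t₉)` -/
theorem Jel_mem_adjoin_t9el :
    Jel (Fermat.Agent.S18.Gauss.Concrete.jqModC_mem L M) ∈ L⟮t9el (L := L) M h9⟯ := by
  set t := t9el (L := L) M h9 with htdef
  have ht : t ∈ L⟮t⟯ := mem_adjoin_simple_self L t
  have hq : t ^ 2 + 9 * t + 27 ∈ L⟮t⟯ :=
    add_mem (add_mem (pow_mem ht 2) (mul_mem (ofNat_mem _ 9) ht)) (ofNat_mem _ 27)
  have hden : t ^ 9 * (t ^ 2 + 9 * t + 27) ≠ 0 :=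
    mul_ne_zero (pow_ne_zero _ (t9el_ne_zero M h9)) (t9el_quad_ne_zero M h9)
  have h : Jel (Fermat.Agent.S18.Gauss.Concrete.jqModC_mem L M) = (t + 9) ^ 3 *
      (t ^ 3 + 243 * t ^ 2 + 2187 * t + 6561) ^ 3 / (t ^ 9 * (t ^ 2 + 9 * t + 27)) := by
    rw [eq_div_iff hden]; exact Jel_mul_t9el M h9
  rw [h]
  exact div_mem (mul_mem (pow_mem (add_mem ht (ofNat_mem _ 9)) 3)
    (pow_mem (add_mem (add_mem (add_mem (pow_mem ht 3) (mul_mem (ofNat_mem _ 243) (pow_mem ht 2)))
      (mul_mem (ofNat_mem _ 2187) ht)) (ofNat_mem _ 6561)) 3))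
    (mul_mem (pow_mem ht 9) hq)

theorem adjoin_Jel_le : L⟮Jel (Fermat.Agent.S18.Gauss.Concrete.jqModC_mem L M)⟯ ≤ L⟮t9el (L := L) M h9⟯ :=
  adjoin_simple_le_iff.mpr (Jel_mem_adjoin_t9el M h9)

/-! ### degrees over `L(t₉)` in characteristic zero -/

theorem transcendental_t9el : Transcendental L (t9el (L := L) M h9) := by
  intro halg
  apply Fermat.Agent.S18.Haupt9.Degree.transcendental_t9C L
  have := halg.algebraMap (A := LaurentSeries L)
  exact this

theorem rel_t9el :
    Jel (Fermat.Agent.S18.Gauss.Concrete.jqModC_mem L M) *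
        aeval (t9el (L := L) M h9) (Fermat.Agent.S18.Haupt9.Degree.Dp L) =
      aeval (t9el (L := L) M h9) (Fermat.Agent.S18.Haupt9.Degree.Rn L) := by
  rw [Fermat.Agent.S18.Haupt9.Degree.aeval_Dp, Fermat.Agent.S18.Haupt9.Degree.aeval_Rn, mul_pow]
  exact Jel_mul_t9el M h9

/-- **`ψ(M) = 12 · [FL : L(t₉)]`** -/
theorem psi_eq_twelve_mul :
    dedekindPsi M = 12 * Module.finrank ↥L⟮t9el (L := L) M h9⟯
      ↥(laurentBaseChange L (modularFunctionFieldFull M)) := by
  have : CharZero L := algebraRat.charZero L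
  rw [← Fermat.Agent.S18.Gauss.Concrete.finrank_eq_psi L M,
    Fermat.Agent.S18.Haupt.DegreeOverT.finrank_eq_mul (t9el (L := L) M h9)
      (Jel (Fermat.Agent.S18.Gauss.Concrete.jqModC_mem L M)) (transcendental_t9el M h9)
      (Fermat.Agent.S18.Haupt9.Degree.Rn L) (Fermat.Agent.S18.Haupt9.Degree.Dp L)
      (Fermat.Agent.S18.Haupt9.Degree.isCoprime_Rn_Dp three_ne_zero)
      Fermat.Agent.S18.Haupt9.Degree.Dp_ne_zero (rel_t9el M h9),
    Fermat.Agent.S18.Haupt9.Degree.max_deg]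

theorem finiteDimensional_t9el :
    FiniteDimensional ↥L⟮t9el (L := L) M h9⟯
      ↥(laurentBaseChange L (modularFunctionFieldFull M)) := by
  have := Fermat.Agent.S18.Gauss.Concrete.finiteDimensional L M
  exact Fermat.Agent.S18.Inst.GaussChart.finiteDimensional_of_le (adjoin_Jel_le M h9)

section Gauss

variable {M}
variable {A : ValuationSubring L} {ℓ : ℕ} [Fact ℓ.Prime]
  [CharP (ResidueField A) ℓ] (hℓM : ¬ ℓ ∣ M)
  (hφ : Scalable A ((laurentBaseChange L (modularFunctionFieldFull M)).val :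
      ↥(laurentBaseChange L (modularFunctionFieldFull M)) →+* LaurentSeries L))

/-- the Gauss subring of `FL` is of Gauss type (helper18's adapter). -/
theorem isGaussRed :
    IsGaussRed A (residue A) (laurentBaseChange L (modularFunctionFieldFull M))
      (gaussSubring hφ) (resMap hφ) :=
  Fermat.Agent.S18.Gauss.Adapter.isGaussRed_val hφ

/-- `t₉` is Gauss-integral. -/
theorem t9el_mem : t9el (L := L) M h9 ∈ gaussSubring hφ :=
  t9C_mem_of_isGaussRed (isGaussRed hφ) (t9C_mem_laurentBaseChange L M h9)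

/-- the reduction of `t₉` is `t̄₉ = q⁻¹ + …`. -/
theorem resMap_t9el :
    resMap hφ ⟨t9el (L := L) M h9, t9el_mem h9 hφ⟩ = t9C (ResidueField A) :=
  map_t9C_of_isGaussRed (isGaussRed hφ) (t9C_mem_laurentBaseChange L M h9)

/-- the reduction of `t₉` is transcendental over the residue field. -/
theorem transcendental_resMap_t9el :
    Transcendental (ResidueField A) (resMap hφ ⟨t9el (L := L) M h9, t9el_mem h9 hφ⟩) := by
  rw [resMap_t9el]
  exact Fermat.Agent.S18.Haupt9.Degree.transcendental_t9C (ResidueField A)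

include hℓM in
/-- **The INST bundle at level `9 ∣ M`**: `CoordData` for the Gauss valuation subring of `FL`
and the coordinate `t₉`. -/
theorem coordData9 [IsDiscreteValuationRing A] {π : A} (hπ : Irreducible π) :
    Fermat.Agent.S18.Inst.Bundle.CoordData A π (gaussSubring hφ) (t9el (L := L) M h9) := by
  have := Fermat.Agent.S18.Gauss.Concrete.finiteDimensional L M
  exact Fermat.Agent.S18.Inst.Bundle.coordData_of_gauss (hconst M) hφ hπ (t9el_mem h9 hφ)
    (transcendental_resMap_t9el h9 hφ) (K₀ := L⟮Jel (Fermat.Agent.S18.Gauss.Concrete.jqModC_mem L M)⟯) (adjoin_Jel_le M h9)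
    (fun O' h => Fermat.Agent.S18.Gauss.Concrete.eq_of_comap_eq (isGaussRed hφ) hℓM O' h)

end Gauss

/-! ### the residue side: `F_{M,κ}` over `κ(t̄₉)` -/

/-- separability passes to a bigger base field. -/
theorem isSeparable_of_le {k E : Type*} [Field k] [Field E] [Algebra k E]
    {K₀ K : IntermediateField k E} (hle : K₀ ≤ K) [Algebra.IsSeparable K₀ E] :
    Algebra.IsSeparable K E := by
  let _ : Algebra K₀ K := (IntermediateField.inclusion hle).toRingHom.toAlgebra
  have : IsScalarTower K₀ K E := IsScalarTower.of_algebraMap_eq (fun x => rfl)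
  exact Algebra.isSeparable_tower_top_of_isSeparable K₀ K E

section Residue

variable {M}
variable (k : Type*) [Field k] (ℓ : ℕ) [Fact ℓ.Prime] [CharP k ℓ] (hℓM : ¬ ℓ ∣ M)

include h9 hℓM

omit [NeZero M] [Fact ℓ.Prime] in
theorem ell_ne_three : ℓ ≠ 3 := by
  rintro rfl
  exact hℓM (dvd_trans (by norm_num) h9)

/-- `t̄₉ ∈ F_{M,k}` -/
theorem t9C_mem_fullC : t9C k ∈ modularFunctionFieldFullC k M :=
  full_degeneracyC_le k h9
    (Fermat.Agent.S18.Haupt9.Degree.t9C_mem_fullC ℓ k (ell_ne_three h9 ℓ hℓM))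

/-- `t̄₉` as an element of `F_{M,k}`. -/
def t9bar : ↥(modularFunctionFieldFullC k M) := ⟨t9C k, t9C_mem_fullC h9 k ℓ hℓM⟩

theorem transcendental_t9bar : Transcendental k (t9bar h9 k ℓ hℓM) := by
  intro halg
  apply Fermat.Agent.S18.Haupt9.Degree.transcendental_t9C k
  have := halg.algebraMap (A := LaurentSeries k)
  exact this

theorem rel_t9bar :
    Fermat.Agent.S18.Trans.jBar k M *
        aeval (t9bar h9 k ℓ hℓM) (Fermat.Agent.S18.Haupt9.Degree.Dp k) =
      aeval (t9bar h9 k ℓ hℓM) (Fermat.Agent.S18.Haupt9.Degree.Rn k) := by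
  rw [Fermat.Agent.S18.Haupt9.Degree.aeval_Dp, Fermat.Agent.S18.Haupt9.Degree.aeval_Rn, mul_pow]
  have h := Fermat.Agent.S18.Haupt9.jqModC_mul9 k
  apply (modularFunctionFieldFullC k M).val.injective
  simp only [map_mul, map_pow, map_add, map_ofNat]
  exact h

theorem adjoin_jBar_le :
    (k⟮Fermat.Agent.S18.Trans.jBar k M⟯ : IntermediateField k (modularFunctionFieldFullC k M)) ≤
      k⟮t9bar h9 k ℓ hℓM⟯ :=
  Fermat.Agent.S18.Haupt.DegreeOverT.adjoin_le_adjoin (t9bar h9 k ℓ hℓM)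
    (Fermat.Agent.S18.Trans.jBar k M) (transcendental_t9bar h9 k ℓ hℓM)
    (Fermat.Agent.S18.Haupt9.Degree.Rn k) (Fermat.Agent.S18.Haupt9.Degree.Dp k)
    Fermat.Agent.S18.Haupt9.Degree.Dp_ne_zero (rel_t9bar h9 k ℓ hℓM)

/-- `[F_{M,k} : k(j̄)] = 12 · [F_{M,k} : k(t̄₉)]` -/
theorem finrank_jBar_eq_twelve_mul :
    Module.finrank
      (k⟮Fermat.Agent.S18.Trans.jBar k M⟯ : IntermediateField k (modularFunctionFieldFullC k M))
      (modularFunctionFieldFullC k M) =
    12 * Module.finrank ↥k⟮t9bar h9 k ℓ hℓM⟯ ↥(modularFunctionFieldFullC k M) := by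
  have h3 : (3 : k) ≠ 0 :=
    Fermat.Agent.S18.Haupt9.Degree.three_ne_zero_of_char ℓ k (ell_ne_three h9 ℓ hℓM)
  rw [Fermat.Agent.S18.Haupt.DegreeOverT.finrank_eq_mul (t9bar h9 k ℓ hℓM)
      (Fermat.Agent.S18.Trans.jBar k M) (transcendental_t9bar h9 k ℓ hℓM)
      (Fermat.Agent.S18.Haupt9.Degree.Rn k) (Fermat.Agent.S18.Haupt9.Degree.Dp k)
      (Fermat.Agent.S18.Haupt9.Degree.isCoprime_Rn_Dp h3)
      Fermat.Agent.S18.Haupt9.Degree.Dp_ne_zero (rel_t9bar h9 k ℓ hℓM),
    Fermat.Agent.S18.Haupt9.Degree.max_deg]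

/-- **`F_{M,k}` is separable over `k(t̄₉)`** -/
theorem isSeparable_t9bar :
    Algebra.IsSeparable ↥k⟮t9bar h9 k ℓ hℓM⟯ ↥(modularFunctionFieldFullC k M) := by
  have := Fermat.Agent.S18.Gauss.Separable.isSeparable_full (ℓ := ℓ) (k := k) (N := M) hℓM
  exact isSeparable_of_le (adjoin_jBar_le h9 k ℓ hℓM)

/-- **`F_{M,k}` is finite over `k(t̄₉)`** -/
theorem finiteDimensional_t9bar :
    FiniteDimensional ↥k⟮t9bar h9 k ℓ hℓM⟯ ↥(modularFunctionFieldFullC k M) := by
  have := Fermat.Agent.S18.Gauss.Separable.finiteDimensional_full (ℓ := ℓ) (k := k) (N := M) hℓM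
  exact Fermat.Agent.S18.Inst.GaussChart.finiteDimensional_of_le (adjoin_jBar_le h9 k ℓ hℓM)

end Residue

/-! ### both sides together: equal degrees over the `t₉`-line -/

section Final

variable {M}
variable {A : ValuationSubring L} {ℓ : ℕ} [Fact ℓ.Prime]
  [CharP (ResidueField A) ℓ] (hℓM : ¬ ℓ ∣ M)
  (hφ : Scalable A ((laurentBaseChange L (modularFunctionFieldFull M)).val :
      ↥(laurentBaseChange L (modularFunctionFieldFull M)) →+* LaurentSeries L))

include hφ in
/-- **`ψ(M) = 12 · [F_{M,κ} : κ(t̄₉)]`** -/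
theorem psi_eq_twelve_mul_res :
    dedekindPsi M = 12 * Module.finrank ↥(ResidueField A)⟮t9bar h9 (ResidueField A) ℓ hℓM⟯
      ↥(modularFunctionFieldFullC (ResidueField A) M) := by
  rw [← finrank_jBar_eq_twelve_mul h9 (ResidueField A) ℓ hℓM]
  exact (Fermat.Agent.S18.Gauss.Concrete.finrank_full (isGaussRed hφ) hℓM).symm

include hφ in
/-- **`[FL : L(t₉)] = [F_{M,κ} : κ(t̄₉)]`** (`= ψ(M)/12`): the `hn`/`hnb` of the purity chart. -/
theorem finrank_t9el_eq_finrank_t9bar :
    Module.finrank ↥L⟮t9el (L := L) M h9⟯ ↥(laurentBaseChange L (modularFunctionFieldFull M)) =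
      Module.finrank ↥(ResidueField A)⟮t9bar h9 (ResidueField A) ℓ hℓM⟯
        ↥(modularFunctionFieldFullC (ResidueField A) M) := by
  have h1 := psi_eq_twelve_mul (L := L) M h9
  have h2 := psi_eq_twelve_mul_res h9 hℓM hφ
  omega

/-- the reduction of `t₉` is (the underlying series of) `t̄₉ ∈ F_{M,κ}`. -/
theorem resMap_t9el_eq_coe :
    resMap hφ ⟨t9el (L := L) M h9, t9el_mem h9 hφ⟩ =
      ((t9bar h9 (ResidueField A) ℓ hℓM : ↥(modularFunctionFieldFullC (ResidueField A) M)) :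
        LaurentSeries (ResidueField A)) :=
  resMap_t9el h9 hφ

end Final

end

end Fermat.Agent.S18.Inst.Level9
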