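import Mathlib
import Fermat.Agent.S18.Inst.Level4Final
import Fermat.Agent.S18.Inst.Level9
import Fermat.Agent.S18.Cusp.ShiftData

/-!
# S18, INST layer: the downstairs list of `chart_package_kummer` at levels 4 and 9

`ShiftData.DownData L π O ρ t n` (= the hypotheses `ht htO htbar findim hn hnb sep` of
`KummerInst.chart_package_kummer` / `KummerHloc.hloc_of_kummer_package`) for

* level `4 ∣ M`: `t = Level4.tEl M h4`, `O = ModularH.gaussVS A hℓM`, `ρ = Level4Final.rho4 A hℓM`
  (`downData4`), and for any `hφ`, any corestriction `ρ` of `resMap hφ` (`downData4_of`);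
* level `9 ∣ M`: `t = Level9.t9el M h9`, same `O`, `ρ` (`rho4` does not depend on the level):
  `downData9`, `downData9_of`, with `rho4_t9el`.

The lists for the coordinates `t - a`, `t⁻¹`, `(t - a)⁻¹` follow by `DownData.sub/.inv/.sub_inv`
(`hρR := rho4_algebraMap A hℓM _ _`).
-/

set_option autoImplicit false
set_option linter.unusedSectionVars false
set_option linter.unusedVariables false
set_option linter.style.haveILetI false

noncomputable section

namespace Fermat.Agent.S18.Inst.LevelDown

open Polynomial IsLocalRing IntermediateField ModularCurve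
open Fermat.Agent.S18.Gauss.Basic Fermat.Agent.S18.Gauss.Residue
open Fermat.Agent.S18.Gauss
open Fermat.Agent.S18.Inst.Bundle Fermat.Agent.S18.Haupt
open Fermat.Agent.S18.Trans Fermat.Agent.S18.Inst.Level4 Fermat.Agent.S18.Inst.Level4Final
open Fermat.Agent.S18.Inst.Level9
open Fermat.Agent.S18.Cusp.ShiftData

set_option synthInstance.maxHeartbeats 400000

variable {L : Type*} [Field L] [Algebra ℚ L] {M : ℕ} [NeZero M]
  (A : ValuationSubring L) {ℓ : ℕ} [Fact ℓ.Prime] [CharP (ResidueField A) ℓ] (hℓM : ¬ ℓ ∣ M)

/-! ### level `4 ∣ M` -/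

section Level4

variable (h4 : 4 ∣ M)

include hℓM h4 in
/-- the list at level 4 for any scalability proof and any corestriction of the reduction. -/
theorem downData4_of
    (hφ : Scalable A ((laurentBaseChange L (modularFunctionFieldFull M)).val :
      ↥(laurentBaseChange L (modularFunctionFieldFull M)) →+* LaurentSeries L))
    [IsDiscreteValuationRing A] {π : A}
    (hcd : CoordData A π (gaussSubring hφ) (tEl (L := L) M h4))
    (ρ : ↥(gaussSubring hφ) →+* ↥(modularFunctionFieldFullC (ResidueField A) M))
    (hcoe : ∀ x, ((ρ x : ↥(modularFunctionFieldFullC (ResidueField A) M)) :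
      LaurentSeries (ResidueField A)) = resMap hφ x) :
    DownData L π (gaussSubring hφ) ρ (tEl (L := L) M h4)
      (Module.finrank L⟮(tEl (L := L) M h4)⟯
        ↥(laurentBaseChange L (modularFunctionFieldFull M))) := by
  have hρt : ρ ⟨tEl (L := L) M h4, hcd.good.tau_mem⟩ =
      tBar (ResidueField A) M (t4C_mem_full h4 A hℓM) := by
    apply Subtype.ext
    rw [hcoe]
    exact Level4.resMap_tEl h4 hφ
  haveI := hcd.finite
  refine ⟨hcd.transc, hcd.good.tau_mem, hcd.good.transc, hcd.finite, rfl, ?_, ?_⟩
  · rw [hρt]; exact finrank4_res_eq h4 A hℓM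
  · rw [hρt]; exact isSeparable4_res h4 A hℓM

/-- **the list at level 4** (`O = ModularH.gaussVS A hℓM`, `ρ = rho4 A hℓM`). -/
theorem downData4 [IsDiscreteValuationRing A] {π : A} (hπ : Irreducible π) :
    DownData L π (ModularH.gaussVS A hℓM) (rho4 A hℓM) (tEl (L := L) M h4)
      (Module.finrank L⟮(tEl (L := L) M h4)⟯
        ↥(laurentBaseChange L (modularFunctionFieldFull M))) :=
  downData4_of A hℓM h4 (ModularH.scalable A hℓM) (coordData4 h4 A hℓM hπ) (rho4 A hℓM)
    (fun x => rfl)

/-- the list at level 4 for the coordinate `t₄ - a`. -/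
theorem downData4_sub [IsDiscreteValuationRing A] {π : A} (hπ : Irreducible π) (a : A) :
    DownData L π (ModularH.gaussVS A hℓM) (rho4 A hℓM)
      (tEl (L := L) M h4 -
        algebraMap A ↥(laurentBaseChange L (modularFunctionFieldFull M)) a)
      (Module.finrank L⟮(tEl (L := L) M h4)⟯
        ↥(laurentBaseChange L (modularFunctionFieldFull M))) :=
  (downData4 A hℓM h4 hπ).sub (coordData4 h4 A hℓM hπ).good
    (fun r => rho4_algebraMap A hℓM r _) a

/-- the list at level 4 for the coordinate `t₄⁻¹`. -/
theorem downData4_inv [IsDiscreteValuationRing A] {π : A} (hπ : Irreducible π) :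
    DownData L π (ModularH.gaussVS A hℓM) (rho4 A hℓM) (tEl (L := L) M h4)⁻¹
      (Module.finrank L⟮(tEl (L := L) M h4)⟯
        ↥(laurentBaseChange L (modularFunctionFieldFull M))) :=
  (downData4 A hℓM h4 hπ).inv (coordData4 h4 A hℓM hπ).good

/-- the list at level 4 for the coordinate `(t₄ - a)⁻¹`. -/
theorem downData4_sub_inv [IsDiscreteValuationRing A] {π : A} (hπ : Irreducible π) (a : A) :
    DownData L π (ModularH.gaussVS A hℓM) (rho4 A hℓM)
      (tEl (L := L) M h4 -
        algebraMap A ↥(laurentBaseChange L (modularFunctionFieldFull M)) a)⁻¹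
      (Module.finrank L⟮(tEl (L := L) M h4)⟯
        ↥(laurentBaseChange L (modularFunctionFieldFull M))) :=
  (downData4 A hℓM h4 hπ).sub_inv (coordData4 h4 A hℓM hπ).good
    (fun r => rho4_algebraMap A hℓM r _) a

end Level4

/-! ### level `9 ∣ M` -/

section Level9

variable (h9 : 9 ∣ M)

include hℓM h9 in
/-- the list at level 9 for any scalability proof and any corestriction of the reduction. -/
theorem downData9_of
    (hφ : Scalable A ((laurentBaseChange L (modularFunctionFieldFull M)).val :
      ↥(laurentBaseChange L (modularFunctionFieldFull M)) →+* LaurentSeries L))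
    [IsDiscreteValuationRing A] {π : A}
    (hcd : CoordData A π (gaussSubring hφ) (t9el (L := L) M h9))
    (ρ : ↥(gaussSubring hφ) →+* ↥(modularFunctionFieldFullC (ResidueField A) M))
    (hcoe : ∀ x, ((ρ x : ↥(modularFunctionFieldFullC (ResidueField A) M)) :
      LaurentSeries (ResidueField A)) = resMap hφ x) :
    DownData L π (gaussSubring hφ) ρ (t9el (L := L) M h9)
      (Module.finrank L⟮(t9el (L := L) M h9)⟯
        ↥(laurentBaseChange L (modularFunctionFieldFull M))) := by
  have hρt : ρ ⟨t9el (L := L) M h9, hcd.good.tau_mem⟩ =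
      t9bar h9 (ResidueField A) ℓ hℓM := by
    apply Subtype.ext
    rw [hcoe]
    exact Level9.resMap_t9el h9 hφ
  haveI := hcd.finite
  refine ⟨hcd.transc, hcd.good.tau_mem, hcd.good.transc, hcd.finite, rfl, ?_, ?_⟩
  · rw [hρt]; exact (finrank_t9el_eq_finrank_t9bar h9 hℓM hφ).symm
  · rw [hρt]; exact isSeparable_t9bar h9 (ResidueField A) ℓ hℓM

/-- `ρ t₉ = t̄₉` (`rho4` is level-independent). -/
theorem rho4_t9el (ht : t9el (L := L) M h9 ∈ ModularH.gaussVS A hℓM) :
    rho4 A hℓM ⟨t9el (L := L) M h9, ht⟩ = t9bar h9 (ResidueField A) ℓ hℓM :=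
  Subtype.ext (Level9.resMap_t9el h9 (ModularH.scalable A hℓM))

/-- the INST bundle at level 9 for `O = ModularH.gaussVS A hℓM`. -/
theorem coordData9' [IsDiscreteValuationRing A] {π : A} (hπ : Irreducible π) :
    CoordData A π (ModularH.gaussVS A hℓM) (t9el (L := L) M h9) :=
  coordData9 h9 hℓM (ModularH.scalable A hℓM) hπ

/-- **the list at level 9** (`O = ModularH.gaussVS A hℓM`, `ρ = rho4 A hℓM`). -/
theorem downData9 [IsDiscreteValuationRing A] {π : A} (hπ : Irreducible π) :
    DownData L π (ModularH.gaussVS A hℓM) (rho4 A hℓM) (t9el (L := L) M h9)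
      (Module.finrank L⟮(t9el (L := L) M h9)⟯
        ↥(laurentBaseChange L (modularFunctionFieldFull M))) :=
  downData9_of A hℓM h9 (ModularH.scalable A hℓM) (coordData9' A hℓM h9 hπ) (rho4 A hℓM)
    (fun x => rfl)

/-- the list at level 9 for the coordinate `t₉ - a`. -/
theorem downData9_sub [IsDiscreteValuationRing A] {π : A} (hπ : Irreducible π) (a : A) :
    DownData L π (ModularH.gaussVS A hℓM) (rho4 A hℓM)
      (t9el (L := L) M h9 -
        algebraMap A ↥(laurentBaseChange L (modularFunctionFieldFull M)) a)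
      (Module.finrank L⟮(t9el (L := L) M h9)⟯
        ↥(laurentBaseChange L (modularFunctionFieldFull M))) :=
  (downData9 A hℓM h9 hπ).sub (coordData9' A hℓM h9 hπ).good
    (fun r => rho4_algebraMap A hℓM r _) a

/-- the list at level 9 for the coordinate `t₉⁻¹`. -/
theorem downData9_inv [IsDiscreteValuationRing A] {π : A} (hπ : Irreducible π) :
    DownData L π (ModularH.gaussVS A hℓM) (rho4 A hℓM) (t9el (L := L) M h9)⁻¹
      (Module.finrank L⟮(t9el (L := L) M h9)⟯
        ↥(laurentBaseChange L (modularFunctionFieldFull M))) :=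
  (downData9 A hℓM h9 hπ).inv (coordData9' A hℓM h9 hπ).good

/-- the list at level 9 for the coordinate `(t₉ - a)⁻¹`. -/
theorem downData9_sub_inv [IsDiscreteValuationRing A] {π : A} (hπ : Irreducible π) (a : A) :
    DownData L π (ModularH.gaussVS A hℓM) (rho4 A hℓM)
      (t9el (L := L) M h9 -
        algebraMap A ↥(laurentBaseChange L (modularFunctionFieldFull M)) a)⁻¹
      (Module.finrank L⟮(t9el (L := L) M h9)⟯
        ↥(laurentBaseChange L (modularFunctionFieldFull M))) :=
  (downData9 A hℓM h9 hπ).sub_inv (coordData9' A hℓM h9 hπ).good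
    (fun r => rho4_algebraMap A hℓM r _) a

end Level9

end Fermat.Agent.S18.Inst.LevelDown
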