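/-
S18, INST layer at level `9 ∣ M`: the UNCONDITIONAL package (helper13), the exact mirror of
helper15's `Inst/Level4Final.lean` (same names with `4 ↦ 9`, `six ↦ twelve`), stated for
`O := ModularH.gaussVS A hℓM`, `ρ := ModularH.gaussRes A hℓM`.

`L` any field of characteristic `0` (`[Algebra ℚ L]`), `A` a valuation subring of `L` whose
residue field `κ` has characteristic `ℓ ∤ M`, `9 ∣ M`;
`FL := laurentBaseChange L (modularFunctionFieldFull M)`, `t := tEl M h9 = ⟨Haupt9.t9C L, _⟩`,
`E := modularFunctionFieldFullC κ M`, `t̄ := tBar κ M _ = ⟨Haupt9.t9C κ, _⟩`.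

* `coordData9 : CoordData A π O t` (for `A` a DVR with uniformiser `π`);
* `twelve_mul_finrank9 : 12 * [FL : L(t)] = ψ(M)`;
* `t9C_mem_full : t9C κ ∈ E`, `twelve_mul_finrank9_res : 12 * [E : κ(t̄)] = ψ(M)`,
  `finrank9_res_eq : [E : κ(t̄)] = [FL : L(t)]`, `finiteDimensional9_res`, `isSeparable9_res`;
* the residue map corestricted to `E`: `rho9 : O →+* E` with `rho9_surjective`,
  `rho9_eq_zero_iff`, `rho9_algebraMap`, `rho9_tEl`.
-/
import Mathlib
import Fermat.Agent.S18.Inst.Level9
import Fermat.Agent.S18.Inst.Haupt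
import Fermat.Agent.S18.Gauss.ModularH
import Fermat.Agent.S18.Gauss.Separable

set_option autoImplicit false
set_option linter.unusedSectionVars false

noncomputable section

namespace Fermat.Agent.S18.Inst.Level9Final

open Polynomial IsLocalRing IntermediateField ModularCurve
open Fermat.Agent.S18.Gauss.Basic Fermat.Agent.S18.Gauss.Residue
open Fermat.Agent.S18.Gauss
open Fermat.Agent.S18.Inst.Bundle
open Fermat.Agent.S18.Haupt9 (t9C)
open Fermat.Agent.S18.Trans

set_option synthInstance.maxHeartbeats 400000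

/-- the Hauptmodul `t₉` as an element of `F_{M,L}` (`= Level9.t9el`). -/
abbrev tEl {L : Type*} [Field L] [Algebra ℚ L] (M : ℕ) [NeZero M] (h9 : 9 ∣ M) :
    ↥(laurentBaseChange L (modularFunctionFieldFull M)) :=
  Level9.t9el (L := L) M h9

/-- `t̄₉` as an element of `F_{M,κ}`. -/
def tBar (κ : Type*) [Field κ] (M : ℕ)
    (htκ : t9C κ ∈ modularFunctionFieldFullC κ M) : ↥(modularFunctionFieldFullC κ M) :=
  ⟨t9C κ, htκ⟩

variable {L : Type*} [Field L] [Algebra ℚ L] {M : ℕ} [NeZero M] (h9 : 9 ∣ M)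
  (A : ValuationSubring L) {ℓ : ℕ} [Fact ℓ.Prime] [CharP (ResidueField A) ℓ] (hℓM : ¬ ℓ ∣ M)

include h9 hℓM in
/-- `3 ≠ 0` in the residue field (`ℓ ∤ M`, `9 ∣ M`). -/
theorem three_ne_zero_res : (3 : ResidueField A) ≠ 0 := by
  intro h
  have h3 : ((3 : ℕ) : ResidueField A) = 0 := by exact_mod_cast h
  rw [CharP.cast_eq_zero_iff (ResidueField A) ℓ] at h3
  exact hℓM (h3.trans ((by norm_num : 3 ∣ 9).trans h9))

/-- **The INST bundle at level `9 ∣ M`, unconditional.** -/
theorem coordData9 [IsDiscreteValuationRing A] {π : A} (hπ : Irreducible π) :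
    CoordData A π (ModularH.gaussVS A hℓM) (tEl (L := L) M h9) :=
  Level9.coordData9 h9 hℓM (ModularH.scalable A hℓM) hπ

/-- `12 * [FL : L(t)] = ψ(M)`. -/
theorem twelve_mul_finrank9 :
    12 * Module.finrank L⟮(tEl (L := L) M h9)⟯
      (laurentBaseChange L (modularFunctionFieldFull M)) = dedekindPsi M :=
  (Level9.psi_eq_twelve_mul (L := L) M h9).symm

/-- `t₉ ∈ O`. -/
theorem tEl_mem9 : tEl (L := L) M h9 ∈ ModularH.gaussVS A hℓM :=
  Level9.t9el_mem h9 (ModularH.scalable A hℓM)

/-- `ρ t₉ = t9C κ`. -/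
theorem gaussRes_tEl :
    ModularH.gaussRes A hℓM ⟨tEl (L := L) M h9, tEl_mem9 h9 A hℓM⟩ = t9C (ResidueField A) :=
  Level9.resMap_t9el h9 (ModularH.scalable A hℓM)

include h9 hℓM in
/-- `t̄₉ ∈ F_{M,κ}`. -/
theorem t9C_mem_full :
    t9C (ResidueField A) ∈ modularFunctionFieldFullC (ResidueField A) M :=
  Level9.t9C_mem_fullC h9 (ResidueField A) ℓ hℓM

/-- `12 * [F_{M,κ} : κ(t̄)] = ψ(M)`. -/
theorem twelve_mul_finrank9_res :
    12 * Module.finrank
      (ResidueField A)⟮tBar (ResidueField A) M (t9C_mem_full h9 A hℓM)⟯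
      (modularFunctionFieldFullC (ResidueField A) M) = dedekindPsi M :=
  (Level9.psi_eq_twelve_mul_res h9 hℓM (ModularH.scalable A hℓM)).symm

/-- `[F_{M,κ} : κ(t̄)] = [FL : L(t)]`. -/
theorem finrank9_res_eq :
    Module.finrank
      (ResidueField A)⟮tBar (ResidueField A) M (t9C_mem_full h9 A hℓM)⟯
      (modularFunctionFieldFullC (ResidueField A) M) =
    Module.finrank L⟮(tEl (L := L) M h9)⟯
      (laurentBaseChange L (modularFunctionFieldFull M)) :=
  (Level9.finrank_t9el_eq_finrank_t9bar h9 hℓM (ModularH.scalable A hℓM)).symm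

/-- `F_{M,κ}` is finite over `κ(t̄)`. -/
theorem finiteDimensional9_res :
    FiniteDimensional
      (ResidueField A)⟮tBar (ResidueField A) M (t9C_mem_full h9 A hℓM)⟯
      (modularFunctionFieldFullC (ResidueField A) M) :=
  Level9.finiteDimensional_t9bar h9 (ResidueField A) ℓ hℓM

/-- `F_{M,κ}` is separable over `κ(t̄)`. -/
theorem isSeparable9_res :
    Algebra.IsSeparable
      (ResidueField A)⟮tBar (ResidueField A) M (t9C_mem_full h9 A hℓM)⟯
      (modularFunctionFieldFullC (ResidueField A) M) :=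
  Level9.isSeparable_t9bar h9 (ResidueField A) ℓ hℓM

/-! ### the residue map with values in `E = F_{M,κ}` -/

/-- the residue map of the Gauss valuation, corestricted to `F_{M,κ}`. -/
def rho9 : ↥(ModularH.gaussVS A hℓM) →+* ↥(modularFunctionFieldFullC (ResidueField A) M) :=
  (ModularH.gaussRes A hℓM).codRestrict (modularFunctionFieldFullC (ResidueField A) M)
    (fun x => Concrete.map_mem_full (ModularH.isGaussRed A hℓM) hℓM x)

@[simp]
theorem coe_rho9 (x : ↥(ModularH.gaussVS A hℓM)) :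
    ((rho9 A hℓM x : ↥(modularFunctionFieldFullC (ResidueField A) M)) :
      LaurentSeries (ResidueField A)) = ModularH.gaussRes A hℓM x := rfl

theorem rho9_surjective : Function.Surjective (rho9 A hℓM) := by
  intro y
  obtain ⟨x, hx⟩ := Concrete.exists_map_eq_of_mem_full (ModularH.isGaussRed A hℓM) y.2
  exact ⟨x, Subtype.ext hx⟩

theorem rho9_eq_zero_iff (x : ↥(ModularH.gaussVS A hℓM)) :
    rho9 A hℓM x = 0 ↔ (ModularH.gaussVS A hℓM).valuation
      (x : ↥(laurentBaseChange L (modularFunctionFieldFull M))) < 1 := by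
  rw [← Subtype.coe_inj, coe_rho9]
  exact (GaussChart.valuation_lt_one_iff (ModularH.scalable A hℓM) x).symm

theorem rho9_algebraMap (r : A)
    (hr : algebraMap A ↥(laurentBaseChange L (modularFunctionFieldFull M)) r ∈
      ModularH.gaussVS A hℓM) :
    rho9 A hℓM ⟨algebraMap A ↥(laurentBaseChange L (modularFunctionFieldFull M)) r, hr⟩ =
      algebraMap (ResidueField A) ↥(modularFunctionFieldFullC (ResidueField A) M)
        (residue A r) := by
  apply Subtype.ext
  rw [coe_rho9]
  have h := resMap_algebraMap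
    (Inst.Haupt.val_algebraMap (laurentBaseChange L (modularFunctionFieldFull M)))
    (ModularH.scalable A hℓM) r hr
  refine h.trans ?_
  exact (Fermat.Agent.S18.Core.ConstOfIntegral.algebraMap_laurent_eq_C (residue A r)).symm

/-- `ρ t = t̄`. -/
theorem rho9_tEl (ht : tEl (L := L) M h9 ∈ ModularH.gaussVS A hℓM) :
    rho9 A hℓM ⟨tEl (L := L) M h9, ht⟩ =
      tBar (ResidueField A) M (t9C_mem_full h9 A hℓM) :=
  Subtype.ext (gaussRes_tEl h9 A hℓM)

end Fermat.Agent.S18.Inst.Level9Final
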