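import Mathlib
import Fermat.Agent.S18.ConstExt.Restrict
import Fermat.Agent.S18.Haupt.Level4Gauss
import Fermat.Agent.S18.Haupt.Level9GaussFinal
import Fermat.Agent.S18.NoElliptic.InvCoord

/-!
# S18, INST layer: the Hauptmoduln under the constant field extension `L₁ → ℚ̄`

`L₁` any field with `[Algebra ℚ L₁] [Algebra L₁ ℚ̄]`, `FL := laurentBaseChange L₁ (Full M)`,
`FF M = laurentBaseChange ℚ̄ (Full M)`, `up := ConstExt.up : FL →+* FF M` (the `Algebra FL (FF M)`
structure `ConstExt.algUp` has `algebraMap = up` by `rfl`).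

* `up_t4 : up ⟨t4C L₁, _⟩ = t4Bar M h4`, `up_t9 : up ⟨t9C L₁, _⟩ = t9Bar M h9`, inverses;
* the geometric hypotheses `htr`, `hfin`, `D5` of `Purity.CharZeroInst.h2_elementwise`
  (kb := ℚ̄, Fb := FF M, `Algebra F Fb := ConstExt.algUp`) in their EXACT shapes, for the four
  chart coordinates `t₄`, `t₄⁻¹` (`c = X (X + 16)`, `c̃ = X (16 X + 1)`) and `t₉`, `t₉⁻¹`
  (`c = X (X² + 9 X + 27)`, `c̃ = X (27 X² + 9 X + 1)`), the polynomials over any commutative
  ring `R` with `[Algebra R L₁]`.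
-/

set_option autoImplicit false
set_option linter.unusedSectionVars false
set_option linter.unusedVariables false
set_option linter.style.haveILetI false

namespace Fermat.Agent.S18.Inst.UpHaupt

open AlgebraicCurve Polynomial IntermediateField ModularCurve
open Fermat.Agent.S24.BridgeInv Fermat.Agent.S24.PlaceAt
open Fermat.Agent.S18.ConstExt Fermat.Agent.S18.Haupt Fermat.Agent.S18.NoElliptic.InvCoord

noncomputable section

variable {L₁ : Type*} [Field L₁] [Algebra ℚ L₁] [Algebra L₁ Kbar] (M : ℕ) [NeZero M]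

/-! ### level `4 ∣ M` -/

section Level4

open Fermat.Agent.S18.Haupt.Level4Degree

variable (h4 : 4 ∣ M)
include h4

/-- `up t₄ = t4Bar`. -/
theorem up_t4 (h : t4C L₁ ∈ laurentBaseChange L₁ (modularFunctionFieldFull M)) :
    up (K := Kbar) (modularFunctionFieldFull M) ⟨t4C L₁, h⟩ = t4Bar M h4 := by
  apply Subtype.ext
  rw [coe_up, coe_t4Bar, ← t4C_eq_coeffEmb]
  exact coeffMap_t4C _

theorem up_t4_inv (h : t4C L₁ ∈ laurentBaseChange L₁ (modularFunctionFieldFull M)) :
    up (K := Kbar) (modularFunctionFieldFull M)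
      (⟨t4C L₁, h⟩ : laurentBaseChange L₁ (modularFunctionFieldFull M))⁻¹ = (t4Bar M h4)⁻¹ := by
  rw [map_inv₀, up_t4 M h4 h]

variable (h : t4C L₁ ∈ laurentBaseChange L₁ (modularFunctionFieldFull M))

/-- `htr` of `h2_elementwise` for `t = t₄`. -/
theorem htr_t4 :
    letI := algUp (L1 := L₁) (K := Kbar) (modularFunctionFieldFull M)
    Transcendental Kbar (algebraMap (laurentBaseChange L₁ (modularFunctionFieldFull M)) (FF M)
      ⟨t4C L₁, h⟩) := by
  letI := algUp (L1 := L₁) (K := Kbar) (modularFunctionFieldFull M)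
  show Transcendental Kbar (up (K := Kbar) (modularFunctionFieldFull M) ⟨t4C L₁, h⟩)
  rw [up_t4 M h4 h]
  exact transcendental_t4Bar M h4

/-- `hfin` of `h2_elementwise` for `t = t₄`. -/
theorem hfin_t4 :
    letI := algUp (L1 := L₁) (K := Kbar) (modularFunctionFieldFull M)
    FiniteDimensional
      Kbar⟮algebraMap (laurentBaseChange L₁ (modularFunctionFieldFull M)) (FF M) ⟨t4C L₁, h⟩⟯
      (FF M) := by
  letI := algUp (L1 := L₁) (K := Kbar) (modularFunctionFieldFull M)
  show FiniteDimensional Kbar⟮up (K := Kbar) (modularFunctionFieldFull M) ⟨t4C L₁, h⟩⟯ (FF M)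
  rw [up_t4 M h4 h]
  exact finiteDimensional_t4Bar M h4

/-- `D5` of `h2_elementwise` for `t = t₄`, `c = X (X + 16)`. -/
theorem D5_t4 {R : Type*} [CommRing R] [Algebra R L₁] :
    letI := algUp (L1 := L₁) (K := Kbar) (modularFunctionFieldFull M)
    ∀ (v : Place Kbar (FF M)) (t0 : Kbar),
      aeval t0 ((X * (X + 16) : R[X]).map (algebraMap R L₁)) ≠ 0 →
      0 < v.ord (algebraMap (laurentBaseChange L₁ (modularFunctionFieldFull M)) (FF M)
        ⟨t4C L₁, h⟩ - algebraMap Kbar (FF M) t0) →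
      v.ord (algebraMap (laurentBaseChange L₁ (modularFunctionFieldFull M)) (FF M)
        ⟨t4C L₁, h⟩ - algebraMap Kbar (FF M) t0) = 1 := by
  letI := algUp (L1 := L₁) (K := Kbar) (modularFunctionFieldFull M)
  intro v t0 hc hv
  have e : algebraMap (laurentBaseChange L₁ (modularFunctionFieldFull M)) (FF M) ⟨t4C L₁, h⟩
      = t4Bar M h4 := up_t4 M h4 h
  rw [e] at hv ⊢
  have hc' : t0 * (t0 + 16) ≠ 0 := by
    simpa only [Polynomial.map_mul, Polynomial.map_add, Polynomial.map_pow, Polynomial.map_X,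
      Polynomial.map_ofNat, Polynomial.map_one, map_mul, map_add, map_pow, aeval_X, map_ofNat,
      map_one] using hc
  refine ord_t4Bar_sub_eq_one M h4 v t0 (left_ne_zero_of_mul hc') (fun h16 => ?_) hv
  apply right_ne_zero_of_mul hc'
  rw [h16]; ring

/-- `htr` of `h2_elementwise` for `u = t₄⁻¹`. -/
theorem htr_t4_inv :
    letI := algUp (L1 := L₁) (K := Kbar) (modularFunctionFieldFull M)
    Transcendental Kbar (algebraMap (laurentBaseChange L₁ (modularFunctionFieldFull M)) (FF M)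
      (⟨t4C L₁, h⟩ : laurentBaseChange L₁ (modularFunctionFieldFull M))⁻¹) := by
  letI := algUp (L1 := L₁) (K := Kbar) (modularFunctionFieldFull M)
  show Transcendental Kbar (up (K := Kbar) (modularFunctionFieldFull M)
    (⟨t4C L₁, h⟩ : laurentBaseChange L₁ (modularFunctionFieldFull M))⁻¹)
  rw [up_t4_inv M h4 h]
  exact transcendental_t4Bar_inv M h4

/-- `hfin` of `h2_elementwise` for `u = t₄⁻¹`. -/
theorem hfin_t4_inv :
    letI := algUp (L1 := L₁) (K := Kbar) (modularFunctionFieldFull M)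
    FiniteDimensional
      Kbar⟮algebraMap (laurentBaseChange L₁ (modularFunctionFieldFull M)) (FF M)
        (⟨t4C L₁, h⟩ : laurentBaseChange L₁ (modularFunctionFieldFull M))⁻¹⟯ (FF M) := by
  letI := algUp (L1 := L₁) (K := Kbar) (modularFunctionFieldFull M)
  show FiniteDimensional Kbar⟮up (K := Kbar) (modularFunctionFieldFull M)
    (⟨t4C L₁, h⟩ : laurentBaseChange L₁ (modularFunctionFieldFull M))⁻¹⟯ (FF M)
  rw [up_t4_inv M h4 h]
  exact finiteDimensional_t4Bar_inv M h4

/-- `D5` of `h2_elementwise` for `u = t₄⁻¹`, `c̃ = X (16 X + 1)`. -/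
theorem D5_t4_inv {R : Type*} [CommRing R] [Algebra R L₁] :
    letI := algUp (L1 := L₁) (K := Kbar) (modularFunctionFieldFull M)
    ∀ (v : Place Kbar (FF M)) (u0 : Kbar),
      aeval u0 ((X * (16 * X + 1) : R[X]).map (algebraMap R L₁)) ≠ 0 →
      0 < v.ord (algebraMap (laurentBaseChange L₁ (modularFunctionFieldFull M)) (FF M)
        (⟨t4C L₁, h⟩ : laurentBaseChange L₁ (modularFunctionFieldFull M))⁻¹
          - algebraMap Kbar (FF M) u0) →
      v.ord (algebraMap (laurentBaseChange L₁ (modularFunctionFieldFull M)) (FF M)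
        (⟨t4C L₁, h⟩ : laurentBaseChange L₁ (modularFunctionFieldFull M))⁻¹
          - algebraMap Kbar (FF M) u0) = 1 := by
  letI := algUp (L1 := L₁) (K := Kbar) (modularFunctionFieldFull M)
  intro v u0 hc hv
  have e : algebraMap (laurentBaseChange L₁ (modularFunctionFieldFull M)) (FF M)
      (⟨t4C L₁, h⟩ : laurentBaseChange L₁ (modularFunctionFieldFull M))⁻¹
      = (t4Bar M h4)⁻¹ := up_t4_inv M h4 h
  rw [e] at hv ⊢
  have hc' : u0 * (16 * u0 + 1) ≠ 0 := by
    simpa only [Polynomial.map_mul, Polynomial.map_add, Polynomial.map_pow, Polynomial.map_X,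
      Polynomial.map_ofNat, Polynomial.map_one, map_mul, map_add, map_pow, aeval_X, map_ofNat,
      map_one] using hc
  exact ord_t4Bar_inv_sub_eq_one M h4 v u0 (left_ne_zero_of_mul hc') (right_ne_zero_of_mul hc') hv

end Level4

/-! ### level `9 ∣ M` -/

section Level9

open Fermat.Agent.S18.Haupt9 Fermat.Agent.S18.Haupt9.Degree

variable (h9 : 9 ∣ M)
include h9

/-- `up t₉ = t9Bar`. -/
theorem up_t9 (h : Haupt9.t9C L₁ ∈ laurentBaseChange L₁ (modularFunctionFieldFull M)) :
    up (K := Kbar) (modularFunctionFieldFull M) ⟨Haupt9.t9C L₁, h⟩ = t9Bar M h9 := by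
  apply Subtype.ext
  rw [coe_up, coe_t9Bar_eq]
  exact coeffMap_t9C _

theorem up_t9_inv (h : Haupt9.t9C L₁ ∈ laurentBaseChange L₁ (modularFunctionFieldFull M)) :
    up (K := Kbar) (modularFunctionFieldFull M)
      (⟨Haupt9.t9C L₁, h⟩ : laurentBaseChange L₁ (modularFunctionFieldFull M))⁻¹
      = (t9Bar M h9)⁻¹ := by
  rw [map_inv₀, up_t9 M h9 h]

variable (h : Haupt9.t9C L₁ ∈ laurentBaseChange L₁ (modularFunctionFieldFull M))

/-- `htr` of `h2_elementwise` for `t = t₉`. -/
theorem htr_t9 :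
    letI := algUp (L1 := L₁) (K := Kbar) (modularFunctionFieldFull M)
    Transcendental Kbar (algebraMap (laurentBaseChange L₁ (modularFunctionFieldFull M)) (FF M)
      ⟨Haupt9.t9C L₁, h⟩) := by
  letI := algUp (L1 := L₁) (K := Kbar) (modularFunctionFieldFull M)
  show Transcendental Kbar (up (K := Kbar) (modularFunctionFieldFull M) ⟨Haupt9.t9C L₁, h⟩)
  rw [up_t9 M h9 h]
  exact transcendental_t9Bar M h9

/-- `hfin` of `h2_elementwise` for `t = t₉`. -/
theorem hfin_t9 :
    letI := algUp (L1 := L₁) (K := Kbar) (modularFunctionFieldFull M)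
    FiniteDimensional
      Kbar⟮algebraMap (laurentBaseChange L₁ (modularFunctionFieldFull M)) (FF M)
        ⟨Haupt9.t9C L₁, h⟩⟯ (FF M) := by
  letI := algUp (L1 := L₁) (K := Kbar) (modularFunctionFieldFull M)
  show FiniteDimensional Kbar⟮up (K := Kbar) (modularFunctionFieldFull M) ⟨Haupt9.t9C L₁, h⟩⟯
    (FF M)
  rw [up_t9 M h9 h]
  exact finiteDimensional_t9Bar M h9

/-- `D5` of `h2_elementwise` for `t = t₉`, `c = X (X² + 9 X + 27)`. -/
theorem D5_t9 {R : Type*} [CommRing R] [Algebra R L₁] :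
    letI := algUp (L1 := L₁) (K := Kbar) (modularFunctionFieldFull M)
    ∀ (v : Place Kbar (FF M)) (t0 : Kbar),
      aeval t0 ((X * (X ^ 2 + 9 * X + 27) : R[X]).map (algebraMap R L₁)) ≠ 0 →
      0 < v.ord (algebraMap (laurentBaseChange L₁ (modularFunctionFieldFull M)) (FF M)
        ⟨Haupt9.t9C L₁, h⟩ - algebraMap Kbar (FF M) t0) →
      v.ord (algebraMap (laurentBaseChange L₁ (modularFunctionFieldFull M)) (FF M)
        ⟨Haupt9.t9C L₁, h⟩ - algebraMap Kbar (FF M) t0) = 1 := by
  letI := algUp (L1 := L₁) (K := Kbar) (modularFunctionFieldFull M)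
  intro v t0 hc hv
  have e : algebraMap (laurentBaseChange L₁ (modularFunctionFieldFull M)) (FF M)
      ⟨Haupt9.t9C L₁, h⟩ = t9Bar M h9 := up_t9 M h9 h
  rw [e] at hv ⊢
  have hc' : t0 * (t0 ^ 2 + 9 * t0 + 27) ≠ 0 := by
    simpa only [Polynomial.map_mul, Polynomial.map_add, Polynomial.map_pow, Polynomial.map_X,
      Polynomial.map_ofNat, Polynomial.map_one, map_mul, map_add, map_pow, aeval_X, map_ofNat,
      map_one] using hc
  exact ord_t9Bar_sub_eq_one M h9 v t0 (left_ne_zero_of_mul hc') (right_ne_zero_of_mul hc') hv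

/-- `htr` of `h2_elementwise` for `u = t₉⁻¹`. -/
theorem htr_t9_inv :
    letI := algUp (L1 := L₁) (K := Kbar) (modularFunctionFieldFull M)
    Transcendental Kbar (algebraMap (laurentBaseChange L₁ (modularFunctionFieldFull M)) (FF M)
      (⟨Haupt9.t9C L₁, h⟩ : laurentBaseChange L₁ (modularFunctionFieldFull M))⁻¹) := by
  letI := algUp (L1 := L₁) (K := Kbar) (modularFunctionFieldFull M)
  show Transcendental Kbar (up (K := Kbar) (modularFunctionFieldFull M)
    (⟨Haupt9.t9C L₁, h⟩ : laurentBaseChange L₁ (modularFunctionFieldFull M))⁻¹)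
  rw [up_t9_inv M h9 h]
  exact transcendental_t9Bar_inv M h9

/-- `hfin` of `h2_elementwise` for `u = t₉⁻¹`. -/
theorem hfin_t9_inv :
    letI := algUp (L1 := L₁) (K := Kbar) (modularFunctionFieldFull M)
    FiniteDimensional
      Kbar⟮algebraMap (laurentBaseChange L₁ (modularFunctionFieldFull M)) (FF M)
        (⟨Haupt9.t9C L₁, h⟩ : laurentBaseChange L₁ (modularFunctionFieldFull M))⁻¹⟯ (FF M) := by
  letI := algUp (L1 := L₁) (K := Kbar) (modularFunctionFieldFull M)
  show FiniteDimensional Kbar⟮up (K := Kbar) (modularFunctionFieldFull M)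
    (⟨Haupt9.t9C L₁, h⟩ : laurentBaseChange L₁ (modularFunctionFieldFull M))⁻¹⟯ (FF M)
  rw [up_t9_inv M h9 h]
  exact finiteDimensional_t9Bar_inv M h9

/-- `D5` of `h2_elementwise` for `u = t₉⁻¹`, `c̃ = X (27 X² + 9 X + 1)`. -/
theorem D5_t9_inv {R : Type*} [CommRing R] [Algebra R L₁] :
    letI := algUp (L1 := L₁) (K := Kbar) (modularFunctionFieldFull M)
    ∀ (v : Place Kbar (FF M)) (u0 : Kbar),
      aeval u0 ((X * (27 * X ^ 2 + 9 * X + 1) : R[X]).map (algebraMap R L₁)) ≠ 0 →
      0 < v.ord (algebraMap (laurentBaseChange L₁ (modularFunctionFieldFull M)) (FF M)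
        (⟨Haupt9.t9C L₁, h⟩ : laurentBaseChange L₁ (modularFunctionFieldFull M))⁻¹
          - algebraMap Kbar (FF M) u0) →
      v.ord (algebraMap (laurentBaseChange L₁ (modularFunctionFieldFull M)) (FF M)
        (⟨Haupt9.t9C L₁, h⟩ : laurentBaseChange L₁ (modularFunctionFieldFull M))⁻¹
          - algebraMap Kbar (FF M) u0) = 1 := by
  letI := algUp (L1 := L₁) (K := Kbar) (modularFunctionFieldFull M)
  intro v u0 hc hv
  have e : algebraMap (laurentBaseChange L₁ (modularFunctionFieldFull M)) (FF M)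
      (⟨Haupt9.t9C L₁, h⟩ : laurentBaseChange L₁ (modularFunctionFieldFull M))⁻¹
      = (t9Bar M h9)⁻¹ := up_t9_inv M h9 h
  rw [e] at hv ⊢
  have hc' : u0 * (27 * u0 ^ 2 + 9 * u0 + 1) ≠ 0 := by
    simpa only [Polynomial.map_mul, Polynomial.map_add, Polynomial.map_pow, Polynomial.map_X,
      Polynomial.map_ofNat, Polynomial.map_one, map_mul, map_add, map_pow, aeval_X, map_ofNat,
      map_one] using hc
  exact ord_t9Bar_inv_sub_eq_one M h9 v u0 (left_ne_zero_of_mul hc') (right_ne_zero_of_mul hc') hv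

end Level9

end

end Fermat.Agent.S18.Inst.UpHaupt
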